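import Fermat.Agent.BiluTorus.Torus
import Mathlib.Algebra.MvPolynomial.Funext
import Mathlib.Topology.Algebra.MvPolynomial

/-!
# Zhang's theorem on hypersurfaces in tori

A strict sequence of small points on `f = 0` would make the integral of `min (1, |f|)` over the
torus vanish; so the small points of `f = 0` satisfy one of finitely many monomial relations.
-/

set_option autoImplicit false

noncomputable section

namespace FA.BiluTorus

open Filter Topology Finset MeasureTheory Real

variable {ι : Type*} [Fintype ι]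

omit [Fintype ι] in
/-- The conjugates of a zero of a rational polynomial are zeros. -/
theorem conjMean_eq_zero {f : MvPolynomial ι ℚ} {P : ι → ℂ} (hP : MvPolynomial.aeval P f = 0) :
    conjMean P (fun w => ((min 1 ‖MvPolynomial.aeval w f‖ : ℝ) : ℂ)) = 0 := by
  set gen : ι → IntermediateField.adjoin ℚ (Set.range P) :=
    fun i => ⟨P i, IntermediateField.subset_adjoin ℚ _ ⟨i, rfl⟩⟩
  have h0 : MvPolynomial.aeval gen f = 0 := by
    apply Subtype.val_injective
    show (IntermediateField.adjoin ℚ (Set.range P)).val.toRingHom _ = 0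
    rw [MvPolynomial.aeval_def, MvPolynomial.eval₂_comp_left,
      RingHom.ext_rat ((IntermediateField.adjoin ℚ (Set.range P)).val.toRingHom.comp
        (algebraMap ℚ _)) (algebraMap ℚ ℂ)]
    exact hP
  rw [conjMean, finsum_eq_zero_of_forall_eq_zero fun σ => ?_, zero_div]
  have : MvPolynomial.aeval (fun i => σ (gen i)) f = 0 := by
    have h := congrArg σ.toRingHom h0
    rw [map_zero, MvPolynomial.aeval_def, MvPolynomial.eval₂_comp_left,
      RingHom.ext_rat (σ.toRingHom.comp (algebraMap ℚ _)) (algebraMap ℚ ℂ)] at h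
    exact h
  simp [gen] at this
  simp [this]

theorem eq_zero_of_torusMean {f : MvPolynomial ι ℚ}
    (h : torusMean (fun w : ι → ℂ => ((min 1 ‖MvPolynomial.aeval w f‖ : ℝ) : ℂ)) = 0) :
    f = 0 := by
  have := isProbability_torus (ι := ι)
  have hev : Continuous fun w : ι → ℂ => MvPolynomial.aeval w f := by
    simp only [MvPolynomial.aeval_def, MvPolynomial.eval₂_eq_eval_map]
    exact MvPolynomial.continuous_eval _
  set F : UnitAddTorus ι → ℝ :=
    fun θ => min 1 ‖MvPolynomial.aeval (fun i => fourier 1 (θ i) : ι → ℂ) f‖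
  have hFc : Continuous F := continuous_const.min
    (hev.comp (continuous_pi fun i => (map_continuous _).comp (continuous_apply i))).norm
  have hF0 : ∀ θ, 0 ≤ F θ := fun θ => le_min zero_le_one (norm_nonneg _)
  have hint : (∫ θ, F θ) = 0 := by
    rw [torusMean, integral_complex_ofReal, Complex.ofReal_eq_zero] at h
    exact h
  have hzero : ∀ θ, F θ = 0 := by
    intro θ
    by_contra hne
    have := hFc.integral_pos_of_hasCompactSupport_nonneg_nonzero (μ := volume)
      (HasCompactSupport.of_compactSpace F) hF0 hne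
    exact this.ne' hint
  refine MvPolynomial.map_injective (algebraMap ℚ ℂ) (algebraMap ℚ ℂ).injective ?_
  rw [map_zero]
  refine MvPolynomial.funext_set (fun _ : ι => Metric.sphere (0 : ℂ) 1)
    (fun _ => Set.infinite_of_injOn_mapsTo (s := Set.Ico (0 : ℝ) 1)
      (f := fun θ : ℝ => (fourier 1 (θ : AddCircle (1 : ℝ)) : ℂ)) ?_ ?_
      (Set.Ico_infinite zero_lt_one)) fun x hx => ?_
  · intro a ha b hb hab
    simp only [fourier_one] at hab
    have : Fact ((0 : ℝ) < 1) := ⟨zero_lt_one⟩
    exact (AddCircle.coe_eq_coe_iff_of_mem_Ico (a := 0) (by simpa using ha)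
      (by simpa using hb)).1 (AddCircle.injective_toCircle one_ne_zero (Subtype.ext hab))
  · intro a _
    simp [fourier_apply]
  · have hx1 : ∀ i, ‖x i‖ = 1 := fun i => mem_sphere_zero_iff_norm.1 (hx i (Set.mem_univ i))
    have hne : ∀ i, x i ≠ 0 := fun i h => by simpa [h] using hx1 i
    have h1 := hzero fun i => ((Complex.arg (x i) / (2 * π) : ℝ) : AddCircle (1 : ℝ))
    have h2 : (fun i => fourier 1 ((Complex.arg (x i) / (2 * π) : ℝ) : AddCircle (1 : ℝ))) = x :=
      funext fun i => by
        rw [FA.Equidist.fourier_coe_eq_eAdd, FA.Bilu.eAdd_arg 1 (hne i), zpow_one, FA.Bilu.dir,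
          hx1 i, Complex.ofReal_one, div_one]
    simp only [F, h2] at h1
    rw [map_zero, MvPolynomial.eval_map, ← MvPolynomial.aeval_def, ← norm_eq_zero]
    refine le_antisymm ?_ (norm_nonneg _)
    rcases min_choice 1 ‖MvPolynomial.aeval x f‖ with e | e <;> rw [e] at h1 <;> linarith

/-- The exponent vectors with entries in `[-k, k]`, zero excepted. -/
def boxExp (ι : Type*) [Fintype ι] (k : ℕ) : Finset (ι → ℤ) :=
  letI := Classical.decEq ι
  (Fintype.piFinset fun _ : ι => Icc (-(k : ℤ)) k).erase 0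

/-- **Zhang's theorem.** -/
theorem bogomolov_hypersurface {f : MvPolynomial ι ℚ} (hf : f ≠ 0) :
    ∃ c > 0, ∃ A : Finset (ι → ℤ), (0 : ι → ℤ) ∉ A ∧ ∀ P : ι → ℂ,
      (∀ i, IsAlgebraic ℚ (P i)) → (∀ i, P i ≠ 0) → MvPolynomial.aeval P f = 0 →
      ∑ i, algHeight (P i) < c → ∃ a ∈ A, ∏ i, P i ^ a i = 1 := by
  classical
  by_contra hcon
  push Not at hcon
  choose P halg hne hroot hsmall hA using fun k : ℕ =>
    hcon (1 / ((k : ℝ) + 1)) (by positivity) (boxExp ι k) (Finset.notMem_erase _ _)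
  have hh : ∀ i, Tendsto (fun k => algHeight (P k i)) atTop (𝓝 0) := fun i =>
    squeeze_zero (fun k => algHeight_nonneg _) (fun k =>
      (Finset.single_le_sum (fun j _ => algHeight_nonneg (P k j)) (mem_univ i)).trans
        (hsmall k).le) tendsto_one_div_add_atTop_nhds_zero_nat
  have hstrict : ∀ a : ι → ℤ, a ≠ 0 → ∀ᶠ k in atTop, ∏ i, P k i ^ a i ≠ 1 := by
    intro a ha
    filter_upwards [eventually_ge_atTop (∑ i, (a i).natAbs)] with k hk
    refine hA k a (Finset.mem_erase.2 ⟨ha, Fintype.mem_piFinset.2 fun i => ?_⟩)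
    have := (Finset.single_le_sum (fun j _ => Nat.zero_le (a j).natAbs) (mem_univ i)).trans hk
    rw [Finset.mem_Icc]
    omega
  have hgc : Continuous fun w : ι → ℂ => ((min 1 ‖MvPolynomial.aeval w f‖ : ℝ) : ℂ) := by
    simp only [MvPolynomial.aeval_def, MvPolynomial.eval₂_eq_eval_map]
    exact Complex.continuous_ofReal.comp
      (continuous_const.min (MvPolynomial.continuous_eval _).norm)
  have hlim := tendsto_conjMean halg hne hh hstrict hgc (B := 1) fun w => by
    rw [Complex.norm_real, Real.norm_of_nonneg (le_min zero_le_one (norm_nonneg _))]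
    exact min_le_left _ _
  simp only [fun k => conjMean_eq_zero (hroot k)] at hlim
  exact hf (eq_zero_of_torusMean (tendsto_nhds_unique hlim tendsto_const_nhds))

/-- **Manin–Mumford for hypersurfaces in tori** (Ihara, Serre, Tate, Laurent). -/
theorem maninMumford_hypersurface {f : MvPolynomial ι ℚ} (hf : f ≠ 0) :
    ∃ A : Finset (ι → ℤ), (0 : ι → ℤ) ∉ A ∧ ∀ ζ : ι → ℂ,
      (∀ i, ∃ m : ℕ, 0 < m ∧ ζ i ^ m = 1) → MvPolynomial.aeval ζ f = 0 →
      ∃ a ∈ A, ∏ i, ζ i ^ a i = 1 := by
  obtain ⟨c, hc, A, hA0, hA⟩ := bogomolov_hypersurface hf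
  refine ⟨A, hA0, fun ζ hζ hz => ?_⟩
  choose m hm hpow using hζ
  refine hA ζ (fun i => ((IsIntegral.of_pow (R := ℤ) (hm i)
    (hpow i ▸ isIntegral_one)).tower_top (A := ℚ)).isAlgebraic) (fun i h => ?_) hz ?_
  · have := hpow i
    rw [h, zero_pow (hm i).ne'] at this
    exact zero_ne_one this
  · rw [Finset.sum_eq_zero fun i _ => algHeight_eq_zero_of_pow_eq_one (hm i) (hpow i)]
    exact hc

/-- A curve with infinitely many torsion points meets a one-dimensional subgroup infinitely
often. -/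
theorem maninMumford_curve {f : MvPolynomial (Fin 2) ℚ} (hf : f ≠ 0)
    (hinf : {ζ : Fin 2 → ℂ | (∀ i, ∃ m : ℕ, 0 < m ∧ ζ i ^ m = 1) ∧
      MvPolynomial.aeval ζ f = 0}.Infinite) :
    ∃ a b : ℤ, (a, b) ≠ (0, 0) ∧
      {ζ : Fin 2 → ℂ | MvPolynomial.aeval ζ f = 0 ∧ ζ 0 ^ a * ζ 1 ^ b = 1}.Infinite := by
  obtain ⟨A, hA0, hA⟩ := maninMumford_hypersurface hf
  by_contra hcon
  push Not at hcon
  refine hinf (((A.finite_toSet).biUnion fun a ha => hcon (a 0) (a 1) fun h => hA0 ?_).subset
    fun ζ hζ => ?_)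
  · have : a = 0 := funext fun i => by
      fin_cases i
      · exact congrArg Prod.fst h
      · exact congrArg Prod.snd h
    rwa [← this]
  · obtain ⟨a, ha, he⟩ := hA ζ hζ.1 hζ.2
    rw [Set.mem_iUnion₂]
    exact ⟨a, ha, hζ.2, by rwa [Fin.prod_univ_two] at he⟩

end FA.BiluTorus

end
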