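import Fermat.Agent.BiluTorus.Bogomolov

/-!
# Torsion cosets and the substitution for one monomial relation

A relation `x ^ a = 1` with `a i₀ ≠ 0` is uniformised by `x = ψ y`, where `x j = y j ^ a i₀` for
`j ≠ i₀` and `x i₀ = ζ ∏ y j ^ (-a j)` with `ζ` a root of unity; the map `ψ` takes torsion cosets to
torsion cosets, polynomials pull back to Laurent polynomials, and the heights do not grow.
-/

set_option autoImplicit false

noncomputable section

namespace FA.BiluTorus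

open Finset

/-- A torsion coset, given by a torsion point and the exponents of a monomial map. -/
structure TorsionCoset (ι : Type) where
  /-- the number of parameters -/
  r : ℕ
  /-- the torsion point -/
  shift : ι → ℂ
  /-- the exponents -/
  dirs : Fin r → ι → ℤ
  /-- the point is torsion -/
  shift_torsion : ∀ i, ∃ m : ℕ, 0 < m ∧ shift i ^ m = 1

/-- The point of a coset at a parameter. -/
def TorsionCoset.point {ι : Type} (T : TorsionCoset ι) (t : Fin T.r → ℂ) : ι → ℂ :=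
  fun i => T.shift i * ∏ j, t j ^ T.dirs j i

theorem TorsionCoset.shift_ne_zero {ι : Type} (T : TorsionCoset ι) (i : ι) : T.shift i ≠ 0 := by
  intro h
  obtain ⟨m, hm, h1⟩ := T.shift_torsion i
  rw [h, zero_pow hm.ne'] at h1
  exact zero_ne_one h1

theorem TorsionCoset.point_ne_zero {ι : Type} (T : TorsionCoset ι) {t : Fin T.r → ℂ}
    (ht : ∀ j, t j ≠ 0) (i : ι) : T.point t i ≠ 0 :=
  mul_ne_zero (T.shift_ne_zero i) (Finset.prod_ne_zero_iff.2 fun j _ => zpow_ne_zero _ (ht j))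

/-- The coset lies in the zero set. -/
def TorsionCoset.Within {ι : Type} (T : TorsionCoset ι) (F : Finset (MvPolynomial ι ℂ)) :
    Prop :=
  ∀ t : Fin T.r → ℂ, (∀ j, t j ≠ 0) → ∀ f ∈ F, MvPolynomial.eval (T.point t) f = 0

/-- The whole torus. -/
def TorsionCoset.full (n : ℕ) : TorsionCoset (Fin n) where
  r := n
  shift := fun _ => 1
  dirs := fun j i => if i = j then 1 else 0
  shift_torsion := fun _ => ⟨1, one_pos, one_pow _⟩

theorem TorsionCoset.full_point {n : ℕ} (t : Fin n → ℂ) : (TorsionCoset.full n).point t = t := by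
  funext i
  show (1 : ℂ) * ∏ j : Fin n, t j ^ (if i = j then (1 : ℤ) else 0) = t i
  rw [one_mul, Finset.prod_eq_single i]
  · simp
  · intro j _ hj
    simp [Ne.symm hj]
  · simp

theorem zpow_finset_sum {α : Type*} {x : ℂ} (hx : x ≠ 0) (s : Finset α) (k : α → ℤ) :
    x ^ (∑ l ∈ s, k l) = ∏ l ∈ s, x ^ k l := by
  classical
  induction s using Finset.induction_on with
  | empty => simp
  | insert l s hl ih => rw [Finset.sum_insert hl, Finset.prod_insert hl, zpow_add₀ hx, ih]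

theorem torsion_mul {x y : ℂ} (hx : ∃ m : ℕ, 0 < m ∧ x ^ m = 1)
    (hy : ∃ m : ℕ, 0 < m ∧ y ^ m = 1) : ∃ m : ℕ, 0 < m ∧ (x * y) ^ m = 1 := by
  obtain ⟨m, hm, hx⟩ := hx
  obtain ⟨k, hk, hy⟩ := hy
  refine ⟨m * k, Nat.mul_pos hm hk, ?_⟩
  rw [mul_pow, pow_mul, hx, one_pow, mul_comm m k, pow_mul, hy, one_pow, mul_one]

theorem torsion_zpow {x : ℂ} (hx : ∃ m : ℕ, 0 < m ∧ x ^ m = 1) (k : ℤ) :
    ∃ m : ℕ, 0 < m ∧ (x ^ k) ^ m = 1 := by
  obtain ⟨m, hm, hx⟩ := hx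
  exact ⟨m, hm, by rw [← zpow_natCast, ← zpow_mul, mul_comm, zpow_mul, zpow_natCast, hx, one_zpow]⟩

theorem torsion_prod {α : Type*} (s : Finset α) {x : α → ℂ}
    (hx : ∀ a, ∃ m : ℕ, 0 < m ∧ x a ^ m = 1) : ∃ m : ℕ, 0 < m ∧ (∏ a ∈ s, x a) ^ m = 1 := by
  classical
  induction s using Finset.induction_on with
  | empty => exact ⟨1, one_pos, by simp⟩
  | insert l s hl ih => rw [Finset.prod_insert hl]; exact torsion_mul (hx l) ih

theorem isAlgebraic_of_pow_eq_one {x : ℂ} {m : ℕ} (hm : 0 < m) (hx : x ^ m = 1) :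
    IsAlgebraic ℚ x :=
  ((IsIntegral.of_pow (R := ℤ) hm (hx ▸ isIntegral_one)).tower_top (A := ℚ)).isAlgebraic

variable {n : ℕ}

/-- The substitution. -/
def subst (i₀ : Fin (n + 1)) (a : Fin (n + 1) → ℤ) (ζ : ℂ) (y : Fin n → ℂ) : Fin (n + 1) → ℂ :=
  Fin.insertNth (α := fun _ => ℂ) i₀ (ζ * ∏ l, y l ^ (-a (i₀.succAbove l)))
    fun l => y l ^ a i₀

/-- The image of a coset under the substitution. -/
def TorsionCoset.push (i₀ : Fin (n + 1)) (a : Fin (n + 1) → ℤ) {ζ : ℂ}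
    (hζ : ∃ m : ℕ, 0 < m ∧ ζ ^ m = 1) (T : TorsionCoset (Fin n)) : TorsionCoset (Fin (n + 1)) where
  r := T.r
  shift := subst i₀ a ζ T.shift
  dirs := fun j => Fin.insertNth (α := fun _ => ℤ) i₀
    (∑ l, T.dirs j l * -a (i₀.succAbove l)) fun l => T.dirs j l * a i₀
  shift_torsion := fun i => by
    rcases Fin.eq_self_or_eq_succAbove i₀ i with h | ⟨l, h⟩ <;> subst h
    · rw [subst, Fin.insertNth_apply_same]
      exact torsion_mul hζ (torsion_prod _ fun l => torsion_zpow (T.shift_torsion l) _)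
    · rw [subst, Fin.insertNth_apply_succAbove]
      exact torsion_zpow (T.shift_torsion l) _

theorem TorsionCoset.push_point (i₀ : Fin (n + 1)) (a : Fin (n + 1) → ℤ) {ζ : ℂ}
    (hζ : ∃ m : ℕ, 0 < m ∧ ζ ^ m = 1) (T : TorsionCoset (Fin n)) {t : Fin T.r → ℂ}
    (ht : ∀ j, t j ≠ 0) :
    (T.push i₀ a hζ).point t = subst i₀ a ζ (T.point t) := by
  funext i
  show subst i₀ a ζ T.shift i *
    ∏ j, t j ^ Fin.insertNth (α := fun _ => ℤ) i₀ (∑ l, T.dirs j l * -a (i₀.succAbove l))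
      (fun l => T.dirs j l * a i₀) i = _
  rcases Fin.eq_self_or_eq_succAbove i₀ i with h | ⟨l, h⟩ <;> subst h
  · simp only [subst, Fin.insertNth_apply_same, TorsionCoset.point]
    rw [Finset.prod_congr rfl fun j _ => zpow_finset_sum (ht j) _ _, Finset.prod_comm, mul_assoc,
      ← Finset.prod_mul_distrib]
    congr 1
    refine Finset.prod_congr rfl fun l _ => ?_
    rw [mul_zpow, ← Finset.prod_zpow]
    congr 1
    exact Finset.prod_congr rfl fun j _ => zpow_mul _ _ _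
  · simp only [subst, Fin.insertNth_apply_succAbove, TorsionCoset.point]
    rw [mul_zpow, ← Finset.prod_zpow]
    congr 1
    exact Finset.prod_congr rfl fun j _ => zpow_mul _ _ _

/-- The pullback of a polynomial, cleared of denominators. -/
def pullback (i₀ : Fin (n + 1)) (a : Fin (n + 1) → ℤ) (ζ : ℂ) (K : ℕ)
    (f : MvPolynomial (Fin (n + 1)) ℂ) : MvPolynomial (Fin n) ℂ :=
  ∑ e ∈ f.support, MvPolynomial.monomial
    (Finsupp.equivFunOnFinite.symm fun l =>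
      ((e (i₀.succAbove l) : ℤ) * a i₀ - (e i₀ : ℤ) * a (i₀.succAbove l) + K).toNat)
    (f.coeff e * ζ ^ e i₀)

theorem eval_pullback {i₀ : Fin (n + 1)} {a : Fin (n + 1) → ℤ} {ζ : ℂ} {K : ℕ}
    {f : MvPolynomial (Fin (n + 1)) ℂ}
    (hK : ∀ e ∈ f.support, ∀ l : Fin n,
      0 ≤ (e (i₀.succAbove l) : ℤ) * a i₀ - (e i₀ : ℤ) * a (i₀.succAbove l) + K)
    {y : Fin n → ℂ} (hy : ∀ l, y l ≠ 0) :
    MvPolynomial.eval y (pullback i₀ a ζ K f) =
      (∏ l, y l) ^ K * MvPolynomial.eval (subst i₀ a ζ y) f := by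
  rw [pullback, map_sum, MvPolynomial.eval_eq', Finset.mul_sum]
  refine Finset.sum_congr rfl fun e he => ?_
  rw [MvPolynomial.eval_monomial, Finsupp.prod_fintype _ _ fun _ => pow_zero _]
  simp only [Finsupp.equivFunOnFinite_symm_apply_apply, Fin.prod_univ_succAbove _ i₀, subst,
    Fin.insertNth_apply_same, Fin.insertNth_apply_succAbove, mul_pow, ← Finset.prod_pow]
  have h : ∀ l, y l ^ ((e (i₀.succAbove l) : ℤ) * a i₀ - (e i₀ : ℤ) * a (i₀.succAbove l) +
      K).toNat = y l ^ K * (y l ^ (-a (i₀.succAbove l))) ^ e i₀ *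
        (y l ^ a i₀) ^ e (i₀.succAbove l) := by
    intro l
    simp only [← zpow_natCast]
    rw [Int.toNat_of_nonneg (hK e he l), ← zpow_mul, ← zpow_mul, ← zpow_add₀ (hy l),
      ← zpow_add₀ (hy l)]
    congr 1
    ring
  rw [Finset.prod_congr rfl fun l _ => h l, Finset.prod_mul_distrib, Finset.prod_mul_distrib]
  ring

theorem coeff_pullback_isAlgebraic {i₀ : Fin (n + 1)} {a : Fin (n + 1) → ℤ} {ζ : ℂ} {K : ℕ}
    {f : MvPolynomial (Fin (n + 1)) ℂ} (hf : ∀ e, IsAlgebraic ℚ (f.coeff e))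
    (hζ : ∃ m : ℕ, 0 < m ∧ ζ ^ m = 1) (e : Fin n →₀ ℕ) :
    IsAlgebraic ℚ ((pullback i₀ a ζ K f).coeff e) := by
  classical
  rw [pullback, MvPolynomial.coeff_sum, isAlgebraic_iff_isIntegral]
  refine IsIntegral.sum _ fun d _ => ?_
  rw [MvPolynomial.coeff_monomial, ← isAlgebraic_iff_isIntegral]
  split_ifs
  · obtain ⟨m, hm, h⟩ := hζ
    exact (hf d).mul ((isAlgebraic_of_pow_eq_one hm h).pow _)
  · exact isAlgebraic_zero

/-- Roots of every nonzero integral order. -/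
theorem exists_zpow_eq {A : ℤ} (hA : A ≠ 0) {x : ℂ} (hx : IsAlgebraic ℚ x) (hx0 : x ≠ 0) :
    ∃ y : ℂ, y ^ A = x ∧ y ≠ 0 ∧ IsAlgebraic ℚ y ∧ algHeight y ≤ algHeight x := by
  have key : ∀ (N : ℕ) (w : ℂ), 0 < N → IsAlgebraic ℚ w → w ≠ 0 →
      ∃ y : ℂ, y ^ N = w ∧ y ≠ 0 ∧ IsAlgebraic ℚ y ∧ algHeight y ≤ algHeight w := by
    intro N w hN hw hw0
    obtain ⟨y, hy⟩ := IsAlgClosed.exists_pow_nat_eq w hN
    have hyalg : IsAlgebraic ℚ y :=
      (IsIntegral.of_pow hN (by rw [hy]; exact hw.isIntegral)).isAlgebraic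
    refine ⟨y, hy, fun h => hw0 (by rw [← hy, h, zero_pow hN.ne']), hyalg, ?_⟩
    have h := algHeight_zpow hyalg (N : ℤ)
    rw [zpow_natCast, hy, Int.natAbs_natCast] at h
    rw [h]
    exact le_mul_of_one_le_left (algHeight_nonneg y) (Nat.one_le_cast.2 hN)
  obtain ⟨N, rfl | rfl⟩ := Int.eq_nat_or_neg A
  · obtain ⟨y, h1, h2⟩ := key N x (by omega) hx hx0
    exact ⟨y, by rw [zpow_natCast, h1], h2⟩
  · obtain ⟨y, h1, h2, h3, h4⟩ := key N x⁻¹ (by omega) hx.inv (inv_ne_zero hx0)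
    exact ⟨y, by rw [zpow_neg, zpow_natCast, h1, inv_inv], h2, h3,
      h4.trans_eq (algHeight_inv hx)⟩

/-- Every solution of `x ^ a = 1` is a value of a substitution. -/
theorem exists_subst_eq {i₀ : Fin (n + 1)} {a : Fin (n + 1) → ℤ} (ha : a i₀ ≠ 0)
    {x : Fin (n + 1) → ℂ} (hx : ∀ i, IsAlgebraic ℚ (x i)) (hx0 : ∀ i, x i ≠ 0)
    (h1 : ∏ i, x i ^ a i = 1) :
    ∃ ζ : ℂ, ∃ y : Fin n → ℂ, ζ ^ (a i₀).natAbs = 1 ∧ subst i₀ a ζ y = x ∧
      (∀ l, IsAlgebraic ℚ (y l)) ∧ (∀ l, y l ≠ 0) ∧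
      ∑ l, algHeight (y l) ≤ ∑ i, algHeight (x i) := by
  choose y hy hy0 hyalg hyh using fun l : Fin n =>
    exists_zpow_eq ha (hx (i₀.succAbove l)) (hx0 _)
  have hP : (∏ l, y l ^ (-a (i₀.succAbove l))) ≠ 0 :=
    Finset.prod_ne_zero_iff.2 fun l _ => zpow_ne_zero _ (hy0 l)
  refine ⟨x i₀ / ∏ l, y l ^ (-a (i₀.succAbove l)), y, ?_, ?_, hyalg, hy0, ?_⟩
  · have h : (x i₀ / ∏ l, y l ^ (-a (i₀.succAbove l))) ^ a i₀ = 1 := by
      rw [Fin.prod_univ_succAbove _ i₀] at h1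
      rw [div_zpow, ← Finset.prod_zpow, div_eq_mul_inv, ← Finset.prod_inv_distrib]
      refine Eq.trans ?_ h1
      congr 1
      refine Finset.prod_congr rfl fun l _ => ?_
      rw [← hy l, ← zpow_mul, ← zpow_mul, ← zpow_neg]
      congr 1
      ring
    rcases Int.natAbs_eq (a i₀) with e | e <;> rw [e] at h
    · rwa [zpow_natCast] at h
    · rwa [zpow_neg, zpow_natCast, inv_eq_one] at h
  · funext i
    rcases Fin.eq_self_or_eq_succAbove i₀ i with h | ⟨l, h⟩ <;> subst h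
    · rw [subst, Fin.insertNth_apply_same, div_mul_cancel₀ _ hP]
    · rw [subst, Fin.insertNth_apply_succAbove, hy]
  · rw [Fin.sum_univ_succAbove _ i₀]
    exact le_add_of_nonneg_of_le (algHeight_nonneg _) (Finset.sum_le_sum fun l _ => hyh l)

/-- A polynomial with algebraic coefficients divides a nonzero polynomial over `ℚ`. -/
theorem exists_rat_multiple {ι : Type*} {f : MvPolynomial ι ℂ} (hf : f ≠ 0)
    (halg : ∀ e, IsAlgebraic ℚ (f.coeff e)) :
    ∃ G : MvPolynomial ι ℚ, G ≠ 0 ∧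
      ∀ x : ι → ℂ, MvPolynomial.eval x f = 0 → MvPolynomial.aeval x G = 0 := by
  classical
  obtain ⟨L, hfd, hgal, hmem⟩ := exists_galois (fun e : f.support => f.coeff e) fun e => halg e
  obtain ⟨f0, hf0⟩ : ∃ f0 : MvPolynomial ι L, MvPolynomial.map L.val.toRingHom f0 = f := by
    refine RingHom.mem_range.1 (MvPolynomial.mem_range_map_iff_coeffs_subset.2 fun c hc => ?_)
    rw [Finset.mem_coe, MvPolynomial.mem_coeffs_iff] at hc
    obtain ⟨e, he, rfl⟩ := hc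
    exact ⟨⟨_, hmem ⟨e, he⟩⟩, rfl⟩
  set G := ∏ σ : L ≃ₐ[ℚ] L, MvPolynomial.map σ.toAlgHom.toRingHom f0 with hG
  have hfix : ∀ (τ : L ≃ₐ[ℚ] L) e, τ (G.coeff e) = G.coeff e := by
    intro τ e
    have h : MvPolynomial.map τ.toAlgHom.toRingHom G = G := by
      rw [hG, map_prod]
      refine Fintype.prod_equiv (Equiv.mulLeft τ) _ _ fun σ => ?_
      rw [MvPolynomial.map_map]
      rfl
    conv_rhs => rw [← h]
    rw [MvPolynomial.coeff_map]
    rfl
  obtain ⟨G0, hG0⟩ : ∃ G0 : MvPolynomial ι ℚ, MvPolynomial.map (algebraMap ℚ L) G0 = G := by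
    refine RingHom.mem_range.1 (MvPolynomial.mem_range_map_iff_coeffs_subset.2 fun c hc => ?_)
    rw [Finset.mem_coe, MvPolynomial.mem_coeffs_iff] at hc
    obtain ⟨e, -, rfl⟩ := hc
    exact (IsGalois.mem_range_algebraMap_iff_fixed _).2 fun τ => hfix τ e
  have hf00 : f0 ≠ 0 := fun h => hf (by rw [← hf0, h, map_zero])
  refine ⟨G0, fun h => ?_, fun x hx => ?_⟩
  · rw [h, map_zero] at hG0
    obtain ⟨σ, -, hσ⟩ := Finset.prod_eq_zero_iff.1 hG0.symm
    exact hf00 (MvPolynomial.map_injective _ (RingHom.injective _) (hσ.trans (map_zero _).symm))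
  · have h1 : MvPolynomial.map L.val.toRingHom G = MvPolynomial.map (algebraMap ℚ ℂ) G0 := by
      rw [← hG0, MvPolynomial.map_map, RingHom.ext_rat (L.val.toRingHom.comp (algebraMap ℚ L))
        (algebraMap ℚ ℂ)]
    rw [MvPolynomial.aeval_def, ← MvPolynomial.eval_map, ← h1, hG, map_prod, map_prod]
    refine Finset.prod_eq_zero (mem_univ (1 : L ≃ₐ[ℚ] L)) ?_
    rw [MvPolynomial.map_map, show L.val.toRingHom.comp
      (1 : L ≃ₐ[ℚ] L).toAlgHom.toRingHom = L.val.toRingHom from RingHom.ext fun _ => rfl, hf0, hx]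

end FA.BiluTorus

end
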