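import Fermat.Agent.BiluEquidistribution.Main
import Mathlib.NumberTheory.Height.NumberField
import Mathlib.RingTheory.Polynomial.GaussNorm
import Mathlib.FieldTheory.Galois.Basic
import Mathlib.FieldTheory.Normal.Closure

/-!
# The height of a complex algebraic number

`algHeight x` is `log M(p) / deg p` for the irreducible integer polynomial `p` of `x`. Over a Galois
number field `L` containing `x` the product of Mathlib's heights of the conjugates of `x` is a
power of `M(p)`: at the finite places this is Gauss's lemma. Hence the height is subadditive.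
-/

set_option autoImplicit false

noncomputable section

namespace FA.BiluTorus

open Polynomial Finset NumberField FA.Bilu

/-- The fibres of an orbit map all have the same size. -/
theorem prod_smul_eq {G X M : Type*} [Group G] [Fintype G] [MulAction G X] [DecidableEq X]
    [CommMonoid M] (x : X) :
    ∃ m : ℕ, m * #(univ.image fun g : G => g • x) = Fintype.card G ∧
      ∀ F : X → M, ∏ g : G, F (g • x) = (∏ r ∈ univ.image fun g : G => g • x, F r) ^ m := by
  refine ⟨#(univ.filter fun g : G => g • x = x), ?_⟩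
  set s := univ.image fun g : G => g • x
  have hfib : ∀ r ∈ s, #(univ.filter fun g : G => g • x = r) =
      #(univ.filter fun g : G => g • x = x) := by
    intro r hr
    obtain ⟨g₀, -, rfl⟩ := mem_image.1 hr
    refine Finset.card_equiv (Equiv.mulLeft g₀⁻¹) fun g => ?_
    simp [mul_smul, inv_smul_eq_iff]
  constructor
  · have h := Finset.card_eq_sum_card_fiberwise (s := (univ : Finset G)) (f := fun g : G => g • x)
      (t := s) fun g _ => mem_image_of_mem _ (mem_univ g)
    rw [Finset.card_univ, Finset.sum_congr rfl hfib, Finset.sum_const, smul_eq_mul] at h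
    rw [h, mul_comm]
  · intro F
    rw [← Finset.prod_fiberwise_of_maps_to (g := fun g : G => g • x) (t := s)
      (fun g _ => mem_image_of_mem _ (mem_univ g)) fun g : G => F (g • x), ← Finset.prod_pow]
    refine Finset.prod_congr rfl fun r hr => ?_
    rw [Finset.prod_congr rfl fun g hg => by rw [(mem_filter.1 hg).2], Finset.prod_const,
      hfib r hr]

variable {p q : ℤ[X]} {x : ℂ}

open scoped Classical in
/-- The irreducible integer polynomial of an algebraic number. -/
def minZ (x : ℂ) : ℤ[X] :=
  if h : ∃ p : ℤ[X], Irreducible p ∧ aeval x p = 0 then h.choose else 0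

/-- The absolute logarithmic height. -/
def algHeight (x : ℂ) : ℝ := logM (minZ x) / (minZ x).natDegree

theorem natDegree_pos_of_root (hp : Irreducible p) (hx : aeval x p = 0) : 0 < p.natDegree := by
  refine Nat.pos_of_ne_zero fun h => hp.ne_zero ?_
  rw [eq_C_of_natDegree_eq_zero h] at hx ⊢
  rw [aeval_C, algebraMap_int_eq, eq_intCast, Int.cast_eq_zero] at hx
  rw [hx, C_0]

theorem coeff_zero_ne (hp : Irreducible p) (hx : aeval x p = 0) (hx0 : x ≠ 0) :
    p.coeff 0 ≠ 0 := by
  intro h
  obtain ⟨r, rfl⟩ := X_dvd_iff.2 h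
  obtain ⟨c, hc, rfl⟩ := Polynomial.isUnit_iff.1
    ((hp.isUnit_or_isUnit rfl).resolve_left not_isUnit_X)
  rw [map_mul, aeval_X, aeval_C, algebraMap_int_eq, eq_intCast, mul_eq_zero] at hx
  exact hx0 (hx.resolve_right (Int.cast_ne_zero.2 hc.ne_zero))

theorem irreducible_mapQ (hp : Irreducible p) (hx : aeval x p = 0) :
    Irreducible (p.map (Int.castRingHom ℚ)) :=
  (IsPrimitive.Int.irreducible_iff_irreducible_map_cast
    (hp.isPrimitive (natDegree_pos_of_root hp hx).ne')).1 hp

theorem minpoly_eq (hp : Irreducible p) (hx : aeval x p = 0) :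
    minpoly ℚ x =
      p.map (Int.castRingHom ℚ) * C (p.map (Int.castRingHom ℚ)).leadingCoeff⁻¹ := by
  refine (minpoly.eq_of_irreducible (irreducible_mapQ hp hx) ?_).symm
  rw [← algebraMap_int_eq, aeval_map_algebraMap]
  exact hx

theorem associated_of_root (hp : Irreducible p) (hx : aeval x p = 0) (hq : Irreducible q)
    (hy : aeval x q = 0) : Associated p q := by
  have hpP := hp.isPrimitive (natDegree_pos_of_root hp hx).ne'
  refine (hp.dvd_irreducible_iff_associated hq).1 ?_
  rw [IsPrimitive.Int.dvd_iff_map_cast_dvd_map_cast p q hpP]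
  refine ((associated_mul_unit_left _ _ (isUnit_C.2 (IsUnit.mk0 _ (inv_ne_zero
    (leadingCoeff_ne_zero.2 (irreducible_mapQ hp hx).ne_zero))))).symm.dvd).trans ?_
  rw [← minpoly_eq hp hx]
  refine minpoly.dvd ℚ x ?_
  rw [← algebraMap_int_eq, aeval_map_algebraMap]
  exact hy

theorem algHeight_eq (hp : Irreducible p) (hx : aeval x p = 0) :
    algHeight x = logM p / p.natDegree := by
  have h : ∃ p : ℤ[X], Irreducible p ∧ aeval x p = 0 := ⟨p, hp, hx⟩
  rw [algHeight, minZ, dif_pos h]
  obtain ⟨hq, hy⟩ := h.choose_spec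
  obtain ⟨u, hu⟩ := associated_of_root hq hy hp hx
  obtain ⟨c, hc, hcu⟩ := Polynomial.isUnit_iff.1 u.isUnit
  rw [← hu, ← hcu, natDegree_mul_C hc.ne_zero]
  congr 1
  rw [logM, logM, Polynomial.map_mul, map_C, mahlerMeasure_mul, mahlerMeasure_const]
  rcases Int.isUnit_iff.1 hc with rfl | rfl <;> simp

theorem exists_irreducible (hx : IsAlgebraic ℚ x) :
    ∃ p : ℤ[X], Irreducible p ∧ aeval x p = 0 := by
  obtain ⟨P, hP, hPx⟩ := (IsFractionRing.isAlgebraic_iff ℤ ℚ ℂ).2 hx
  obtain ⟨u, hu⟩ := UniqueFactorizationMonoid.factors_prod hP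
  have h0 : aeval x (UniqueFactorizationMonoid.factors P).prod = 0 := by
    rw [← hu, map_mul, mul_eq_zero] at hPx
    exact hPx.resolve_right (u.isUnit.map (aeval x)).ne_zero
  rw [map_multiset_prod, Multiset.prod_eq_zero_iff, Multiset.mem_map] at h0
  obtain ⟨p, hp, hpx⟩ := h0
  exact ⟨p, UniqueFactorizationMonoid.irreducible_of_factor p hp, hpx⟩

theorem algHeight_nonneg (x : ℂ) : 0 ≤ algHeight x :=
  div_nonneg (logM_nonneg _) (Nat.cast_nonneg _)

/-- At a finite place a primitive integer polynomial has Gauss norm one. -/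
theorem gaussNorm_eq_one {L : Type*} [Field L] [NumberField L] (w : FinitePlace L)
    (hp : p.IsPrimitive) : (p.map (Int.castRingHom L)).gaussNorm w.val 1 = 1 := by
  set P := w.maximalIdeal
  have hint : ∀ c : ℤ, w.val (c : L) = w (algebraMap (𝓞 L) L (c : 𝓞 L)) := fun c => by
    exact congrArg w.val (map_intCast (algebraMap (𝓞 L) L) c).symm
  have hle : ∀ c : ℤ, w.val (c : L) ≤ 1 := fun c => by
    rw [hint, ← FinitePlace.norm_embedding_eq]
    exact FinitePlace.norm_le_one L _ _
  refine le_antisymm ?_ ?_
  · obtain ⟨i, hi⟩ := (p.map (Int.castRingHom L)).exists_eq_gaussNorm w.val 1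
    rw [hi, one_pow, mul_one, coeff_map, eq_intCast]
    exact hle _
  · by_contra hlt
    rw [not_le] at hlt
    have hmem : ∀ i, p.coeff i ∈ P.asIdeal.comap (Int.castRingHom (𝓞 L)) := fun i => by
      rw [Ideal.mem_comap, eq_intCast, ← FinitePlace.norm_lt_one_iff_mem L,
        FinitePlace.norm_embedding_eq]
      rw [← hint]
      refine lt_of_le_of_lt ?_ hlt
      have := (p.map (Int.castRingHom L)).le_gaussNorm w.val zero_le_one i
      rwa [coeff_map, eq_intCast, one_pow, mul_one] at this
    obtain ⟨r, hr⟩ := (IsPrincipalIdealRing.principal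
      (P.asIdeal.comap (Int.castRingHom (𝓞 L)))).principal
    have hr' : IsUnit r := hp r (C_dvd_iff_dvd_coeff r p |>.2 fun i => by
      have := hmem i
      rw [hr] at this
      exact Ideal.mem_span_singleton.1 this)
    refine P.isPrime.ne_top ((Ideal.eq_top_iff_one _).2 ?_)
    have h1 : (1 : ℤ) ∈ P.asIdeal.comap (Int.castRingHom (𝓞 L)) := by
      rw [hr]
      exact Ideal.mem_span_singleton.2 hr'.dvd
    rwa [Ideal.mem_comap, map_one] at h1

theorem gaussNorm_X_sub_C {L : Type*} [Field L] (v : AbsoluteValue L ℝ) (r : L) :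
    (X - C r).gaussNorm v 1 = max (v r) 1 := by
  refine le_antisymm ?_ (max_le ?_ ?_)
  · obtain ⟨i, hi⟩ := (X - C r).exists_eq_gaussNorm v 1
    rw [hi, one_pow, mul_one]
    rcases i with _ | _ | i
    · simp
    · simp
    · simp [coeff_X]
  · have h := (X - C r).le_gaussNorm v zero_le_one 0
    rwa [coeff_sub, coeff_X_zero, coeff_C_zero, zero_sub, v.map_neg, pow_zero, mul_one] at h
  · have h := (X - C r).le_gaussNorm v zero_le_one 1
    rwa [coeff_sub, coeff_X_one, coeff_C_succ, sub_zero, map_one, pow_one, mul_one] at h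

variable {L : IntermediateField ℚ ℂ} [FiniteDimensional ℚ L] [IsGalois ℚ L]

instance : NumberField L := {}

theorem separable_mapC (hp : Irreducible p) (hx : aeval x p = 0) :
    (p.map (Int.castRingHom ℂ)).Separable :=
  separable_of_irreducible hp (natDegree_pos_of_root hp hx).ne'

theorem galois_fibres (a : L) (hp : Irreducible p) (hx : aeval (a : ℂ) p = 0) :
    ∃ m : ℕ, m * p.natDegree = Module.finrank ℚ L ∧
      (∀ F : ℂ → ℝ, ∑ g : L ≃ₐ[ℚ] L, F (g a : ℂ) = m * ∑ z ∈ rootSetC p, F z) ∧
      (C (p.leadingCoeff : L) ^ m * ∏ g : L ≃ₐ[ℚ] L, (X - C (g a))) =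
        (p.map (Int.castRingHom L)) ^ m := by
  classical
  set f := p.map (Int.castRingHom L) with hf
  have hinj : Function.Injective (Int.castRingHom L) := Int.cast_injective
  have hne : f ≠ 0 := (Polynomial.map_ne_zero_iff hinj).2 hp.ne_zero
  have hsep : f.Separable := by
    have := (irreducible_mapQ hp hx).separable.map (f := algebraMap ℚ L)
    rwa [Polynomial.map_map, RingHom.ext_int ((algebraMap ℚ L).comp (Int.castRingHom ℚ))
      (Int.castRingHom L)] at this
  have hax : aeval a p = 0 := by
    apply Subtype.val_injective (p := fun z => z ∈ L)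
    have e := aeval_algHom_apply (L.val.restrictScalars ℤ) a p
    simp only [AlgHom.coe_restrictScalars', IntermediateField.coe_val] at e
    rw [hx] at e
    exact e.symm
  set s := univ.image fun g : L ≃ₐ[ℚ] L => g • a
  have hs : f.roots = s.val := by
    have h1 : f.roots.toFinset = s := by
      ext r
      rw [Multiset.mem_toFinset, mem_roots hne, IsRoot, hf, eval_map, ← algebraMap_int_eq,
        ← aeval_def, mem_image]
      constructor
      · intro hr
        have hmin : minpoly ℚ a =
            p.map (Int.castRingHom ℚ) * C (p.map (Int.castRingHom ℚ)).leadingCoeff⁻¹ := by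
          rw [← minpoly_eq hp hx]
          exact (minpoly.algebraMap_eq (algebraMap L ℂ).injective a).symm
        have h0 : aeval r (minpoly ℚ a) = 0 := by
          rw [hmin, map_mul, ← algebraMap_int_eq, aeval_map_algebraMap, hr, zero_mul]
        obtain ⟨g, hg⟩ := minpoly.exists_algEquiv_of_root'
          (Algebra.IsAlgebraic.isAlgebraic a) h0
        exact ⟨g, mem_univ _, hg⟩
      · rintro ⟨g, -, rfl⟩
        rw [AlgEquiv.smul_def]
        have e := aeval_algHom_apply ((g : L →ₐ[ℚ] L).restrictScalars ℤ) a p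
        simp only [AlgHom.coe_restrictScalars', AlgEquiv.coe_toAlgHom] at e
        rw [e, hax, map_zero]
    rw [← h1, Multiset.toFinset_val, Multiset.dedup_eq_self.2 (nodup_roots hsep)]
  have hsplit : f.Splits := by
    have h := Normal.splits (inferInstance : Normal ℚ L) a
    rw [← minpoly.algebraMap_eq (algebraMap L ℂ).injective a,
      show algebraMap L ℂ a = (a : ℂ) from rfl, minpoly_eq hp hx, Polynomial.map_mul,
      Polynomial.map_map,
      RingHom.ext_int ((algebraMap ℚ L).comp (Int.castRingHom ℚ)) (Int.castRingHom L)] at h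
    exact h.of_dvd (mul_ne_zero hne (by simp [(irreducible_mapQ hp hx).ne_zero]))
      (dvd_mul_right _ _)
  have hdeg : #s = p.natDegree := by
    rw [Finset.card_def, ← hs, ← hsplit.natDegree_eq_card_roots,
      natDegree_map_eq_of_injective hinj]
  obtain ⟨m, hm, hprod⟩ := prod_smul_eq (G := L ≃ₐ[ℚ] L) (M := Multiplicative ℝ) a
  obtain ⟨m', hm', hprod'⟩ := prod_smul_eq (G := L ≃ₐ[ℚ] L) (M := L[X]) a
  have hcard : Fintype.card (L ≃ₐ[ℚ] L) = Module.finrank ℚ L := by
    rw [← Nat.card_eq_fintype_card, IsGalois.card_aut_eq_finrank]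
  rw [hdeg, hcard] at hm hm'
  have hd := natDegree_pos_of_root hp hx
  obtain rfl : m' = m := Nat.eq_of_mul_eq_mul_right hd (hm'.trans hm.symm)
  refine ⟨m', hm, fun F => ?_, ?_⟩
  · have := congrArg Multiplicative.toAdd (hprod fun r => Multiplicative.ofAdd (F (r : ℂ)))
    simp only [toAdd_prod, toAdd_pow, toAdd_ofAdd, AlgEquiv.smul_def, nsmul_eq_mul] at this
    rw [this]
    congr 1
    have himg : rootSetC p = s.image fun r : L => (r : ℂ) := by
      have h2 := (roots_map_of_injective_of_card_eq_natDegree (f := L.val.toRingHom)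
        Subtype.val_injective hsplit.natDegree_eq_card_roots.symm).symm
      rw [hf, Polynomial.map_map,
        RingHom.ext_int (L.val.toRingHom.comp (Int.castRingHom L)) (Int.castRingHom ℂ)] at h2
      rw [rootSetC, h2, ← hf, hs]
      ext z
      simp only [Multiset.mem_toFinset, Multiset.mem_map, Finset.mem_val, Finset.mem_image]
      rfl
    rw [himg, Finset.sum_image fun r _ r' _ h => Subtype.ext h]
    simp only [s, AlgEquiv.smul_def]
  · simp only [AlgEquiv.smul_def] at hprod'
    rw [hprod' fun r => X - C r, ← mul_pow]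
    congr 1
    have := hsplit.eq_prod_roots
    rw [hs, leadingCoeff_map_of_injective hinj, eq_intCast] at this
    exact this.symm

/-- **The product of the heights of the conjugates.** -/
theorem sum_logHeight₁ (a : L) (hp : Irreducible p) (hx : aeval (a : ℂ) p = 0) :
    ∑ g : L ≃ₐ[ℚ] L, Height.logHeight₁ (g a) =
      (Module.finrank ℚ L : ℝ) ^ 2 * algHeight (a : ℂ) := by
  classical
  obtain ⟨m, hm, hsum, hpoly⟩ := galois_fibres a hp hx
  set D := Module.finrank ℚ L
  have hlead : (p.leadingCoeff : L) ≠ 0 :=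
    Int.cast_ne_zero.2 (leadingCoeff_ne_zero.2 hp.ne_zero)
  -- the finite places
  have hw : ∀ w : FinitePlace L,
      w (p.leadingCoeff : L) ^ m * ∏ g : L ≃ₐ[ℚ] L, max (w (g a)) 1 = 1 := by
    intro w
    have hna : IsNonarchimedean w.val := fun y z => FinitePlace.add_le w y z
    let N : L[X] →* ℝ :=
      { toFun := fun f => f.gaussNorm w.val 1
        map_one' := by rw [← C_1, gaussNorm_C, map_one]
        map_mul' := gaussNorm_mul hna one_pos }
    have h := congrArg N hpoly
    rw [map_mul, map_pow, map_prod, map_pow] at h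
    simp only [N, MonoidHom.coe_mk, OneHom.coe_mk, gaussNorm_C, gaussNorm_X_sub_C,
      gaussNorm_eq_one w (hp.isPrimitive (natDegree_pos_of_root hp hx).ne'), one_pow] at h
    exact h
  -- the product formula for the leading coefficient
  have hsupp : (fun w : FinitePlace L => w (p.leadingCoeff : L)).HasFiniteMulSupport :=
    FinitePlace.hasFiniteMulSupport hlead
  have hfin : ∏ᶠ w : FinitePlace L, ∏ g : L ≃ₐ[ℚ] L, max (w (g a)) 1 =
      |(p.leadingCoeff : ℝ)| ^ (m * D) := by
    have h := prod_abs_eq_one hlead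
    rw [Finset.prod_congr rfl fun v _ => by
        rw [show v (p.leadingCoeff : L) = |(p.leadingCoeff : ℝ)| by
          rw [← InfinitePlace.norm_embedding_eq, map_intCast, Complex.norm_intCast]],
      Finset.prod_pow_eq_pow_sum, InfinitePlace.sum_mult_eq] at h
    have h2 : (∏ᶠ w : FinitePlace L, w (p.leadingCoeff : L)) ^ m *
        ∏ᶠ w : FinitePlace L, ∏ g : L ≃ₐ[ℚ] L, max (w (g a)) 1 = 1 := by
      rw [finprod_pow hsupp, ← finprod_mul_distrib
        (hsupp.subset fun w hw e => hw (by simp only at e ⊢; rw [e, one_pow]))]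
      · exact finprod_eq_one_of_forall_eq_one hw
      · refine hsupp.subset fun w hw' e => hw' ?_
        have := hw w
        simp only at e this ⊢
        rwa [e, one_pow, one_mul] at this
    have h3 : |(p.leadingCoeff : ℝ)| ^ (m * D) *
        (∏ᶠ w : FinitePlace L, w (p.leadingCoeff : L)) ^ m = 1 := by
      rw [mul_comm m D, pow_mul, ← mul_pow, h, one_pow]
    exact (left_inv_eq_right_inv h3 h2).symm
  -- the infinite places
  have hemb : ∀ τ : L →+* ℂ, ∏ g : L ≃ₐ[ℚ] L, max 1 ‖τ (g a)‖ =
      (∏ z ∈ rootSetC p, max 1 ‖z‖) ^ m := by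
    intro τ
    have h := congrArg (mapRingHom τ) hpoly
    simp only [map_mul, map_pow, map_prod, map_sub, coe_mapRingHom, map_C, map_X, map_intCast,
      Polynomial.map_map, RingHom.ext_int (τ.comp (Int.castRingHom L)) (Int.castRingHom ℂ)] at h
    have h' := congrArg mahlerMeasure h
    let N : ℂ[X] →* ℝ :=
      { toFun := mahlerMeasure, map_one' := mahlerMeasure_one, map_mul' := mahlerMeasure_mul }
    have h'' : N _ = N _ := h'
    rw [map_mul, map_pow, map_prod, map_pow] at h''
    simp only [N, MonoidHom.coe_mk, OneHom.coe_mk, mahlerMeasure_X_sub_C] at h''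
    rw [← Polynomial.C_eq_intCast, mahlerMeasure_const, Complex.norm_intCast,
      mahlerMeasure_eq_leadingCoeff_mul_prod_roots, leadingCoeff_mapC, Complex.norm_intCast,
      mul_pow, ← roots_eq_val (separable_mapC hp hx)] at h''
    exact mul_left_cancel₀ (pow_ne_zero m (abs_ne_zero.2 (Int.cast_ne_zero.2
      (leadingCoeff_ne_zero.2 hp.ne_zero)))) h''
  have hinf : ∏ g : L ≃ₐ[ℚ] L, ∏ v : InfinitePlace L, max (v (g a)) 1 ^ v.mult =
      (∏ z ∈ rootSetC p, max 1 ‖z‖) ^ (m * D) := by
    have e : ∀ y : L, ∏ v : InfinitePlace L, max (v y) 1 ^ v.mult =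
        ∏ τ : L →+* ℂ, max 1 ‖τ y‖ := fun y => by
      rw [← Finset.prod_fiberwise univ InfinitePlace.mk fun τ : L →+* ℂ => max 1 ‖τ y‖]
      refine Finset.prod_congr rfl fun v _ => ?_
      rw [Finset.prod_congr rfl fun τ hτ => by
        rw [max_comm, show ‖τ y‖ = v y by rw [← (Finset.mem_filter.1 hτ).2, InfinitePlace.apply]],
        Finset.prod_const, InfinitePlace.card_filter_mk_eq]
    rw [Finset.prod_congr rfl fun g _ => e (g a), Finset.prod_comm,
      Finset.prod_congr rfl fun τ _ => hemb τ, Finset.prod_const, ← pow_mul]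
    congr 2
    rw [Finset.card_univ, Embeddings.card]
  have hmax : ∀ g : L ≃ₐ[ℚ] L,
      (fun w : FinitePlace L => max (w (g a)) 1).HasFiniteMulSupport := by
    intro g
    rcases eq_or_ne (g a) 0 with h0 | h0
    · simp [h0, Function.HasFiniteMulSupport, Function.mulSupport]
    · exact (FinitePlace.hasFiniteMulSupport h0).subset fun w hw e => hw (by simp [e])
  simp only [Height.logHeight₁_eq_log_mulHeight₁]
  rw [← Real.log_prod fun g _ => (Height.mulHeight₁_ne_zero _)]
  simp only [NumberField.mulHeight₁_eq]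
  rw [Finset.prod_mul_distrib, hinf, ← finprod_prod_comm _ _ fun g _ => hmax g, hfin, ← mul_pow,
    mul_comm, Real.log_pow, algHeight_eq hp hx, logM, mahlerMeasure_eq_leadingCoeff_mul_prod_roots,
    leadingCoeff_mapC, Complex.norm_intCast, ← roots_eq_val (separable_mapC hp hx),
    Finset.prod_map_val, ← hm]
  have := natDegree_pos_of_root hp hx
  push_cast
  field_simp

end FA.BiluTorus

end
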