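import Fermat.Agent.BiluTorus.Cosets
import Mathlib.LinearAlgebra.LinearIndependent.Basic

/-!
# The theorems of Zhang and Laurent

The small points of a subvariety of a torus lie in finitely many torsion cosets inside it: induct
on the dimension, R360 giving a relation `x ^ a = 1` from a finite set and the substitution of
`Cosets` uniformising each relation.
-/

set_option autoImplicit false

noncomputable section

namespace FA.BiluTorus

open Finset

/-- The conclusion of Zhang's theorem in dimension `n`. -/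
theorem bogomolov_cosets : ∀ (n : ℕ) (F : Finset (MvPolynomial (Fin n) ℂ)),
    (∀ f ∈ F, ∀ e, IsAlgebraic ℚ (f.coeff e)) →
    ∃ c > 0, ∃ S : Set (TorsionCoset (Fin n)), S.Finite ∧ (∀ T ∈ S, T.Within F) ∧
      ∀ P : Fin n → ℂ, (∀ i, IsAlgebraic ℚ (P i)) → (∀ i, P i ≠ 0) →
        (∀ f ∈ F, MvPolynomial.eval P f = 0) → ∑ i, algHeight (P i) < c →
        ∃ T ∈ S, ∃ t : Fin T.r → ℂ, (∀ j, t j ≠ 0) ∧ T.point t = P := by
  intro n
  induction n with
  | zero =>
    intro F halg
    by_cases hF : ∀ f ∈ F, f = 0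
    · exact ⟨1, one_pos, {TorsionCoset.full 0}, Set.finite_singleton _,
        fun T _ t _ f hf => by rw [hF f hf, map_zero],
        fun P _ hP0 _ _ => ⟨_, rfl, P, hP0, TorsionCoset.full_point P⟩⟩
    · push Not at hF
      obtain ⟨f, hf, hf0⟩ := hF
      refine ⟨1, one_pos, ∅, Set.finite_empty, fun T hT => hT.elim, fun P _ _ hP _ => ?_⟩
      obtain ⟨G, hG, hGroot⟩ := exists_rat_multiple hf0 (halg f hf)
      have h := hGroot P (hP f hf)
      rw [MvPolynomial.eq_C_of_isEmpty G, MvPolynomial.aeval_C, map_eq_zero] at h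
      refine absurd ?_ hG
      rw [MvPolynomial.eq_C_of_isEmpty G, h, map_zero]
  | succ n ih =>
    intro F halg
    classical
    by_cases hF : ∀ f ∈ F, f = 0
    · exact ⟨1, one_pos, {TorsionCoset.full (n + 1)}, Set.finite_singleton _,
        fun T _ t _ f hf => by rw [hF f hf, map_zero],
        fun P _ hP0 _ _ => ⟨_, rfl, P, hP0, TorsionCoset.full_point P⟩⟩
    push Not at hF
    obtain ⟨f₀, hf₀, hf₀0⟩ := hF
    obtain ⟨G, hG, hGroot⟩ := exists_rat_multiple hf₀0 (halg f₀ hf₀)
    obtain ⟨c₀, hc₀, A, hA0, hA⟩ := bogomolov_hypersurface hG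
    -- one substitution for every relation and every root of unity
    have hpiece : ∀ q : (Fin (n + 1) → ℤ) × ℂ, ∃ c > 0, ∃ S : Set (TorsionCoset (Fin (n + 1))),
        S.Finite ∧ (∀ T ∈ S, T.Within F) ∧ ∀ (i₀ : Fin (n + 1)),
          (q.1 i₀ ≠ 0 ∧ ∀ j < i₀, q.1 j = 0) → q.2 ^ (q.1 i₀).natAbs = 1 →
          ∀ y : Fin n → ℂ, (∀ l, IsAlgebraic ℚ (y l)) → (∀ l, y l ≠ 0) →
          (∀ f ∈ F, MvPolynomial.eval (subst i₀ q.1 q.2 y) f = 0) → ∑ l, algHeight (y l) < c →
          ∃ T ∈ S, ∃ t : Fin T.r → ℂ, (∀ j, t j ≠ 0) ∧ T.point t = subst i₀ q.1 q.2 y := by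
      rintro ⟨a, ζ⟩
      by_cases hq : ∃ i₀, (a i₀ ≠ 0 ∧ ∀ j < i₀, a j = 0) ∧ ζ ^ (a i₀).natAbs = 1
      · obtain ⟨i₀, ⟨hai, hmin⟩, hζ⟩ := hq
        have hζ' : ∃ m : ℕ, 0 < m ∧ ζ ^ m = 1 := ⟨_, Int.natAbs_pos.2 hai, hζ⟩
        set K := F.sup fun f => f.support.sup fun e => univ.sup fun l : Fin n =>
          ((e (i₀.succAbove l) : ℤ) * a i₀ - (e i₀ : ℤ) * a (i₀.succAbove l)).natAbs
        have hK : ∀ f ∈ F, ∀ e ∈ f.support, ∀ l : Fin n,
            0 ≤ (e (i₀.succAbove l) : ℤ) * a i₀ - (e i₀ : ℤ) * a (i₀.succAbove l) + K := by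
          intro f hf e he l
          have h : ((e (i₀.succAbove l) : ℤ) * a i₀ -
              (e i₀ : ℤ) * a (i₀.succAbove l)).natAbs ≤ K :=
            le_trans (le_trans (Finset.le_sup (f := fun l : Fin n =>
              ((e (i₀.succAbove l) : ℤ) * a i₀ - (e i₀ : ℤ) * a (i₀.succAbove l)).natAbs)
              (mem_univ l))
              (Finset.le_sup (f := fun e : Fin (n + 1) →₀ ℕ => univ.sup fun l : Fin n =>
                ((e (i₀.succAbove l) : ℤ) * a i₀ -
                  (e i₀ : ℤ) * a (i₀.succAbove l)).natAbs) he))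
              (Finset.le_sup (f := fun f : MvPolynomial (Fin (n + 1)) ℂ =>
                f.support.sup fun e => univ.sup fun l : Fin n =>
                  ((e (i₀.succAbove l) : ℤ) * a i₀ -
                    (e i₀ : ℤ) * a (i₀.succAbove l)).natAbs) hf)
          omega
        obtain ⟨c, hc, S, hS, hwithin, hcover⟩ := ih (F.image (pullback i₀ a ζ K)) fun g hg e => by
          obtain ⟨f, hf, rfl⟩ := Finset.mem_image.1 hg
          exact coeff_pullback_isAlgebraic (halg f hf) hζ' e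
        refine ⟨c, hc, (fun T => T.push i₀ a hζ') '' S, hS.image _, ?_, ?_⟩
        · rintro _ ⟨T, hT, rfl⟩ t ht f hf
          have h := hwithin T hT t ht _ (Finset.mem_image_of_mem _ hf)
          rw [eval_pullback (hK f hf) (T.point_ne_zero ht)] at h
          rw [TorsionCoset.push_point i₀ a hζ' T ht]
          exact (mul_eq_zero.1 h).resolve_left (pow_ne_zero _
            (Finset.prod_ne_zero_iff.2 fun l _ => T.point_ne_zero ht l))
        · intro j₀ hj _ y hy hy0 hroot hsmall
          obtain rfl : j₀ = i₀ := by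
            rcases lt_trichotomy j₀ i₀ with h | h | h
            · exact absurd (hmin j₀ h) hj.1
            · exact h
            · exact absurd (hj.2 i₀ h) hai
          obtain ⟨T, hT, t, ht, hpt⟩ := hcover y hy hy0 (fun g hg => by
            obtain ⟨f, hf, rfl⟩ := Finset.mem_image.1 hg
            rw [eval_pullback (hK f hf) hy0, hroot f hf, mul_zero]) hsmall
          exact ⟨_, ⟨T, hT, rfl⟩, t, ht,
            (TorsionCoset.push_point j₀ a hζ' T ht).trans (by rw [hpt])⟩
      · exact ⟨1, one_pos, ∅, Set.finite_empty, fun T hT => hT.elim,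
          fun i₀ h1 h2 => absurd ⟨i₀, h1, h2⟩ hq⟩
    choose c hc S hS hwithin hcover using hpiece
    set roots : (Fin (n + 1) → ℤ) → Finset ℂ := fun a =>
      univ.biUnion fun i => Polynomial.nthRootsFinset (a i).natAbs (1 : ℂ)
    set Q := A.biUnion fun a => (roots a).image fun ζ => (a, ζ)
    refine ⟨(insert c₀ (Q.image c)).min' (Finset.insert_nonempty _ _), ?_, ⋃ q ∈ Q, S q,
      Q.finite_toSet.biUnion fun q _ => hS q, fun T hT => ?_, fun P hP hP0 hroot hsmall => ?_⟩
    · rcases Finset.mem_insert.1 (Finset.min'_mem _ (Finset.insert_nonempty c₀ (Q.image c))) with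
        h | h
      · rw [h]; exact hc₀
      · obtain ⟨q, -, hq⟩ := Finset.mem_image.1 h
        rw [← hq]; exact hc q
    · obtain ⟨q, -, hT'⟩ := Set.mem_iUnion₂.1 hT
      exact hwithin q T hT'
    · obtain ⟨a, ha, hrel⟩ := hA P hP hP0 (hGroot P (hroot f₀ hf₀))
        (hsmall.trans_le (Finset.min'_le _ _ (Finset.mem_insert_self _ _)))
      have hne : (univ.filter fun i => a i ≠ 0).Nonempty := by
        obtain ⟨i, hi⟩ := Function.ne_iff.1 fun h : a = 0 => hA0 (h ▸ ha)
        exact ⟨i, mem_filter.2 ⟨mem_univ i, hi⟩⟩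
      obtain ⟨i₀, hi₀⟩ : ∃ i₀, i₀ = (univ.filter fun i => a i ≠ 0).min' hne := ⟨_, rfl⟩
      have hai : a i₀ ≠ 0 := hi₀ ▸ (mem_filter.1 (Finset.min'_mem _ hne)).2
      have hmin : ∀ j < i₀, a j = 0 := fun j hj => by
        by_contra h
        exact absurd (hi₀ ▸ Finset.min'_le _ j (mem_filter.2 ⟨mem_univ j, h⟩)) (not_le.2 hj)
      obtain ⟨ζ, y, hζ, hsub, hy, hy0, hle⟩ := exists_subst_eq hai hP hP0 hrel
      have hq : (a, ζ) ∈ Q := Finset.mem_biUnion.2 ⟨a, ha, Finset.mem_image.2 ⟨ζ,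
        Finset.mem_biUnion.2 ⟨i₀, mem_univ _,
          (Polynomial.mem_nthRootsFinset (Int.natAbs_pos.2 hai) 1).2 hζ⟩, rfl⟩⟩
      obtain ⟨T, hT, t, ht, hpt⟩ := hcover (a, ζ) i₀ ⟨hai, hmin⟩ hζ y hy hy0
        (fun f hf => by rw [hsub]; exact hroot f hf)
        (hle.trans_lt (hsmall.trans_le (Finset.min'_le _ _
          (Finset.mem_insert_of_mem (Finset.mem_image_of_mem c hq)))))
      exact ⟨T, Set.mem_iUnion₂.2 ⟨_, hq, hT⟩, t, ht, hpt.trans hsub⟩

/-- **Laurent's theorem**: the torsion points of a subvariety of a torus. -/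
theorem laurent {n : ℕ} (F : Finset (MvPolynomial (Fin n) ℂ))
    (halg : ∀ f ∈ F, ∀ e, IsAlgebraic ℚ (f.coeff e)) :
    ∃ S : Set (TorsionCoset (Fin n)), S.Finite ∧ (∀ T ∈ S, T.Within F) ∧
      ∀ ζ : Fin n → ℂ, (∀ i, ∃ m : ℕ, 0 < m ∧ ζ i ^ m = 1) →
        (∀ f ∈ F, MvPolynomial.eval ζ f = 0) →
        ∃ T ∈ S, ∃ t : Fin T.r → ℂ, (∀ j, t j ≠ 0) ∧ T.point t = ζ := by
  obtain ⟨c, hc, S, hS, hwithin, hcover⟩ := bogomolov_cosets n F halg
  refine ⟨S, hS, hwithin, fun ζ hζ hroot => ?_⟩
  choose m hm hpow using hζ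
  refine hcover ζ (fun i => isAlgebraic_of_pow_eq_one (hm i) (hpow i)) (fun i h => ?_) hroot ?_
  · have := hpow i
    rw [h, zero_pow (hm i).ne'] at this
    exact zero_ne_one this
  · rw [Finset.sum_eq_zero fun i _ => algHeight_eq_zero_of_pow_eq_one (hm i) (hpow i)]
    exact hc

/-- A subvariety with infinitely many torsion points contains a torsion translate of a
one-dimensional subtorus (Ihara, Serre, Tate for curves). -/
theorem exists_subtorus_of_infinite {n : ℕ} (F : Finset (MvPolynomial (Fin n) ℂ))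
    (halg : ∀ f ∈ F, ∀ e, IsAlgebraic ℚ (f.coeff e))
    (hinf : {ζ : Fin n → ℂ | (∀ i, ∃ m : ℕ, 0 < m ∧ ζ i ^ m = 1) ∧
      ∀ f ∈ F, MvPolynomial.eval ζ f = 0}.Infinite) :
    ∃ (η : Fin n → ℂ) (a : Fin n → ℤ), a ≠ 0 ∧ (∀ i, ∃ m : ℕ, 0 < m ∧ η i ^ m = 1) ∧
      ∀ t : ℂ, t ≠ 0 → ∀ f ∈ F, MvPolynomial.eval (fun i => η i * t ^ a i) f = 0 := by
  classical
  obtain ⟨S, hS, hwithin, hcover⟩ := laurent F halg
  by_contra hcon
  push Not at hcon
  have hdirs : ∀ T ∈ S, ∀ j, T.dirs j = 0 := by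
    intro T hT j
    by_contra hj
    obtain ⟨t, ht, f, hf, hne⟩ := hcon T.shift (T.dirs j) hj T.shift_torsion
    refine hne ?_
    have h := hwithin T hT (Function.update (fun _ => (1 : ℂ)) j t) (fun l => by
      rcases eq_or_ne l j with rfl | hl
      · simpa using ht
      · simp [hl]) f hf
    convert h using 3
    funext i
    rw [TorsionCoset.point, Finset.prod_eq_single j (fun l _ hl => by simp [hl]) (by simp)]
    simp
  refine hinf ((hS.image fun T => T.shift).subset fun ζ hζ => ?_)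
  obtain ⟨T, hT, t, ht, hpt⟩ := hcover ζ hζ.1 hζ.2
  refine ⟨T, hT, ?_⟩
  rw [← hpt]
  funext i
  simp [TorsionCoset.point, hdirs T hT]

/-- Distinct characters of a torus are independent: if `∑ b i t ^ v i` is constant then the
exponents `v` vanish or the nonconstant terms cancel. -/
theorem sum_eq_zero_of_characters {α : Type*} (s : Finset α) {r : ℕ} (b : α → ℂ)
    (v : α → Fin r → ℤ) {w : Fin r → ℤ} (hw : w ≠ 0) (k : ℂ)
    (h : ∀ t : Fin r → ℂ, (∀ j, t j ≠ 0) → ∑ i ∈ s, b i * ∏ j, t j ^ v i j = k) :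
    ∑ i ∈ s.filter (v · = w), b i = 0 := by
  classical
  let χ : (Fin r → ℤ) → ((Fin r → ℂˣ) →* ℂ) := fun u =>
    { toFun := fun t => ∏ j, ((t j : ℂ) ^ u j)
      map_one' := by simp
      map_mul' := fun t t' => by simp [mul_zpow, Finset.prod_mul_distrib] }
  have hχ : Function.Injective χ := by
    intro u u' huu'
    funext j
    have h2 : ∀ u : Fin r → ℤ,
        χ u (Function.update (fun _ => (1 : ℂˣ)) j (Units.mk0 2 two_ne_zero)) = (2 : ℂ) ^ u j :=
      fun u => by
        show ∏ l : Fin r, _ = _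
        rw [Finset.prod_eq_single j (fun l _ hl => by simp [hl]) (by simp)]
        simp
    have h3 := (h2 u).symm.trans ((DFunLike.congr_fun huu' _).trans (h2 u'))
    have h4 := congrArg (‖·‖) h3
    simp only [norm_zpow, Complex.norm_two] at h4
    exact (zpow_right_inj₀ two_pos (by norm_num)).1 h4
  -- group the terms by their exponents
  set U := insert (0 : Fin r → ℤ) (insert w (s.image v))
  have hli := (linearIndependent_monoidHom (Fin r → ℂˣ) ℂ).comp χ hχ
  rw [linearIndependent_iff'] at hli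
  have hzero : ∑ u ∈ U, ((∑ i ∈ s.filter (v · = u), b i) - if u = 0 then k else 0) •
      (fun t : Fin r → ℂˣ => χ u t) = 0 := by
    funext t
    simp only [Finset.sum_apply, Pi.smul_apply, smul_eq_mul, sub_mul, Finset.sum_sub_distrib,
      Pi.zero_apply, ite_mul, zero_mul]
    rw [Finset.sum_ite_eq', if_pos (Finset.mem_insert_self _ _), sub_eq_zero]
    have h1 := h (fun j => t j) fun j => (t j).ne_zero
    rw [← Finset.sum_fiberwise_of_maps_to (g := v) (t := U) (fun i hi =>
      Finset.mem_insert_of_mem (Finset.mem_insert_of_mem (Finset.mem_image_of_mem _ hi)))] at h1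
    have e : k * χ 0 t = k := by simp [χ]
    rw [e, ← h1]
    refine Finset.sum_congr rfl fun u _ => ?_
    rw [Finset.sum_mul]
    exact Finset.sum_congr rfl fun i hi => by rw [(Finset.mem_filter.1 hi).2]; rfl
  have h5 := hli U _ hzero w (Finset.mem_insert_of_mem (Finset.mem_insert_self _ _))
  rwa [if_neg hw, sub_zero] at h5

/-- **Mann's finiteness theorem**: `a₁ z₁ + ⋯ + aₙ zₙ = 1` has only finitely many solutions in
roots of unity without vanishing subsum. -/
theorem finite_roots_of_unity_sum {n : ℕ} (a : Fin n → ℂ) (ha : ∀ i, IsAlgebraic ℚ (a i)) :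
    {z : Fin n → ℂ | (∀ i, ∃ m : ℕ, 0 < m ∧ z i ^ m = 1) ∧ ∑ i, a i * z i = 1 ∧
      ∀ s : Finset (Fin n), s.Nonempty → ∑ i ∈ s, a i * z i ≠ 0}.Finite := by
  classical
  set f : MvPolynomial (Fin n) ℂ := ∑ i, MvPolynomial.C (a i) * MvPolynomial.X i - 1 with hf
  have hcoe : ∀ e, IsAlgebraic ℚ (f.coeff e) := fun e => by
    rw [hf, MvPolynomial.coeff_sub, MvPolynomial.coeff_sum, isAlgebraic_iff_isIntegral]
    refine (IsIntegral.sum _ fun i _ => ?_).sub ?_
    · rw [MvPolynomial.coeff_C_mul, MvPolynomial.coeff_X, ← isAlgebraic_iff_isIntegral]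
      split_ifs
      · simpa using ha i
      · simpa using isAlgebraic_zero
    · rw [MvPolynomial.coeff_one]
      split_ifs
      · exact isIntegral_one
      · exact isIntegral_zero
  have heval : ∀ z, MvPolynomial.eval z f = ∑ i, a i * z i - 1 := fun z => by simp [hf]
  obtain ⟨S, hS, hwithin, hcover⟩ := laurent {f} fun g hg => by
    rw [Finset.mem_singleton.1 hg]; exact hcoe
  refine (hS.image fun T => T.shift).subset fun z ⟨hz, hsum, hsub⟩ => ?_
  obtain ⟨T, hT, t, ht, hpt⟩ := hcover z hz fun g hg => by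
    rw [Finset.mem_singleton.1 hg, heval, hsum, sub_self]
  refine ⟨T, hT, ?_⟩
  -- every exponent vanishes, as the terms with a given exponent cancel
  have hv : ∀ i, (fun j => T.dirs j i) = 0 := by
    intro i
    by_contra hw
    have h0 := sum_eq_zero_of_characters univ (fun i => a i * T.shift i)
      (fun i j => T.dirs j i) hw 1 fun u hu => by
        have h := hwithin T hT u hu f (Finset.mem_singleton_self f)
        rw [heval, sub_eq_zero] at h
        refine Eq.trans (Finset.sum_congr rfl fun l _ => ?_) h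
        rw [TorsionCoset.point, mul_assoc]
    refine hsub (univ.filter fun l => (fun j => T.dirs j l) = fun j => T.dirs j i)
      ⟨i, mem_filter.2 ⟨mem_univ i, rfl⟩⟩ ?_
    rw [← hpt, Finset.sum_congr rfl fun l hl => by
      rw [TorsionCoset.point, Finset.prod_congr rfl fun j _ => by
        rw [congrFun (mem_filter.1 hl).2 j], ← mul_assoc], ← Finset.sum_mul, h0, zero_mul]
  rw [← hpt]
  funext i
  show T.shift i = T.shift i * _
  rw [Finset.prod_eq_one fun j _ => by rw [show T.dirs j i = 0 from congrFun (hv i) j, zpow_zero],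
    mul_one]

end FA.BiluTorus

end
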