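import Fermat.Agent.BiluTorus.Height
import Mathlib.FieldTheory.Extension

/-!
# Properties of the height and the conjugates of a point

A finite set of algebraic numbers lies in a Galois number field inside `ℂ`; there the height is an
average of Mathlib's heights, so it is subadditive, and the mean over the embeddings of the field
of a point is a mean over the Galois group.
-/

set_option autoImplicit false

noncomputable section

namespace FA.BiluTorus

open Polynomial Finset NumberField FA.Bilu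

/-- Finitely many algebraic numbers lie in one Galois number field. -/
theorem exists_galois {ι : Type*} [Fintype ι] (P : ι → ℂ) (hP : ∀ i, IsAlgebraic ℚ (P i)) :
    ∃ L : IntermediateField ℚ ℂ, FiniteDimensional ℚ L ∧ IsGalois ℚ L ∧ ∀ i, P i ∈ L := by
  set Q : ℚ[X] := ∏ i, minpoly ℚ (P i)
  have hQ : (Q.map (algebraMap ℚ ℂ)).Splits := IsAlgClosed.splits _
  have hsf := IntermediateField.adjoin_rootSet_isSplittingField hQ
  have hfd : FiniteDimensional ℚ (IntermediateField.adjoin ℚ (Q.rootSet ℂ)) :=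
    @Polynomial.IsSplittingField.finiteDimensional _ _ _ _ _ Q hsf
  have hn : Normal ℚ (IntermediateField.adjoin ℚ (Q.rootSet ℂ)) :=
    Normal.of_isSplittingField (hFEp := hsf)
  refine ⟨_, hfd, ⟨⟩, fun i => IntermediateField.subset_adjoin ℚ _ ?_⟩
  have h0 : Q ≠ 0 := Finset.prod_ne_zero_iff.2 fun j _ => minpoly.ne_zero (hP j).isIntegral
  rw [Polynomial.mem_rootSet]
  refine ⟨h0, ?_⟩
  rw [map_prod]
  exact Finset.prod_eq_zero (mem_univ i) (minpoly.aeval ℚ (P i))

variable {L : IntermediateField ℚ ℂ} [FiniteDimensional ℚ L] [IsGalois ℚ L]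

omit [IsGalois ℚ L] in
theorem isAlgebraic_coe (a : L) : IsAlgebraic ℚ (a : ℂ) :=
  (Algebra.IsAlgebraic.isAlgebraic a).algHom L.val

/-- The height as a sum over the Galois group. -/
theorem sum_logHeight₁_eq (a : L) :
    ∑ g : L ≃ₐ[ℚ] L, Height.logHeight₁ (g a) =
      (Module.finrank ℚ L : ℝ) ^ 2 * algHeight (a : ℂ) := by
  obtain ⟨p, hp, hx⟩ := exists_irreducible (isAlgebraic_coe a)
  exact sum_logHeight₁ a hp hx

theorem algHeight_mul_le' (a b : L) :
    algHeight ((a * b : L) : ℂ) ≤ algHeight (a : ℂ) + algHeight (b : ℂ) := by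
  have hD : (0 : ℝ) < (Module.finrank ℚ L : ℝ) ^ 2 := by
    have : 0 < Module.finrank ℚ L := Module.finrank_pos
    positivity
  refine le_of_mul_le_mul_left ?_ hD
  rw [mul_add, ← sum_logHeight₁_eq, ← sum_logHeight₁_eq, ← sum_logHeight₁_eq,
    ← Finset.sum_add_distrib]
  refine Finset.sum_le_sum fun g _ => ?_
  rw [map_mul]
  exact Height.logHeight₁_mul_le _ _

theorem algHeight_zpow' (a : L) (n : ℤ) :
    algHeight ((a ^ n : L) : ℂ) = n.natAbs * algHeight (a : ℂ) := by
  have hD : ((Module.finrank ℚ L : ℝ) ^ 2) ≠ 0 :=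
    pow_ne_zero _ (Nat.cast_ne_zero.2 Module.finrank_pos.ne')
  refine mul_left_cancel₀ hD ?_
  rw [mul_left_comm, ← sum_logHeight₁_eq, ← sum_logHeight₁_eq, Finset.mul_sum]
  exact Finset.sum_congr rfl fun g _ => by rw [map_zpow₀, Height.logHeight₁_zpow]

/-- **Subadditivity.** -/
theorem algHeight_mul_le {x y : ℂ} (hx : IsAlgebraic ℚ x) (hy : IsAlgebraic ℚ y) :
    algHeight (x * y) ≤ algHeight x + algHeight y := by
  obtain ⟨L, hfd, hgal, hmem⟩ := exists_galois (fun i : Bool => cond i x y)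
    (fun i => by cases i <;> assumption)
  exact algHeight_mul_le' (L := L) ⟨x, hmem true⟩ ⟨y, hmem false⟩

theorem algHeight_zpow {x : ℂ} (hx : IsAlgebraic ℚ x) (n : ℤ) :
    algHeight (x ^ n) = n.natAbs * algHeight x := by
  obtain ⟨L, hfd, hgal, hmem⟩ := exists_galois (fun _ : Unit => x) (fun _ => hx)
  have h := algHeight_zpow' (L := L) ⟨x, hmem ()⟩ n
  rwa [show ((⟨x, hmem ()⟩ ^ n : L) : ℂ) = x ^ n from map_zpow₀ L.val _ n] at h

theorem algHeight_one : algHeight (1 : ℂ) = 0 := by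
  have h := algHeight_zpow (x := (1 : ℂ)) isAlgebraic_one 0
  simpa using h

theorem algHeight_inv {x : ℂ} (hx : IsAlgebraic ℚ x) : algHeight x⁻¹ = algHeight x := by
  have h := algHeight_zpow hx (-1)
  simpa using h

/-- Roots of unity have height zero. -/
theorem algHeight_eq_zero_of_pow_eq_one {x : ℂ} {m : ℕ} (hm : 0 < m) (hx : x ^ m = 1) :
    algHeight x = 0 := by
  have halg : IsAlgebraic ℚ x :=
    ((IsIntegral.of_pow (R := ℤ) hm (hx ▸ isIntegral_one)).tower_top (A := ℚ)).isAlgebraic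
  have h := algHeight_zpow halg (m : ℤ)
  rw [zpow_natCast, hx, algHeight_one, Int.natAbs_natCast] at h
  exact (mul_eq_zero.1 h.symm).resolve_left (Nat.cast_ne_zero.2 hm.ne')

theorem algHeight_prod_zpow_le {ι : Type*} (s : Finset ι) (P : ι → ℂ)
    (hP : ∀ i, IsAlgebraic ℚ (P i)) (k : ι → ℤ) :
    IsAlgebraic ℚ (∏ i ∈ s, P i ^ k i) ∧
      algHeight (∏ i ∈ s, P i ^ k i) ≤ ∑ i ∈ s, |(k i : ℝ)| * algHeight (P i) := by
  classical
  induction s using Finset.induction_on with
  | empty => simpa [algHeight_one] using isAlgebraic_one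
  | insert i s hi ih =>
    have h1 : IsAlgebraic ℚ (P i ^ k i) := by
      rcases Int.eq_nat_or_neg (k i) with ⟨n, hn | hn⟩
      · rw [hn, zpow_natCast]; exact (hP i).pow n
      · rw [hn, zpow_neg, zpow_natCast]; exact ((hP i).pow n).inv
    rw [Finset.prod_insert hi, Finset.sum_insert hi]
    refine ⟨h1.mul ih.1, (algHeight_mul_le h1 ih.1).trans (add_le_add (le_of_eq ?_) ih.2)⟩
    rw [algHeight_zpow (hP i), Nat.cast_natAbs, Int.cast_abs]

/-- The mean over the Galois group at one number is the mean over its conjugates. -/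
theorem mean_galois (a : L) {p : ℤ[X]} (hp : Irreducible p) (hx : aeval (a : ℂ) p = 0)
    (F : ℂ → ℂ) :
    (∑ g : L ≃ₐ[ℚ] L, F (g a : ℂ)) / (Fintype.card (L ≃ₐ[ℚ] L) : ℂ) =
      mean (rootSetC p) F := by
  obtain ⟨m, hm, hsum, -⟩ := galois_fibres a hp hx
  have h : ∑ g : L ≃ₐ[ℚ] L, F (g a : ℂ) = (m : ℂ) * ∑ z ∈ rootSetC p, F z := by
    have hre := hsum fun z => (F z).re
    have him := hsum fun z => (F z).im
    apply Complex.ext <;> simp [Complex.re_sum, Complex.im_sum, hre, him]
  have hd := natDegree_pos_of_root hp hx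
  have hcard : Fintype.card (L ≃ₐ[ℚ] L) = Module.finrank ℚ L := by
    rw [← Nat.card_eq_fintype_card, IsGalois.card_aut_eq_finrank]
  have hm0 : (m : ℂ) ≠ 0 := by
    have h0 : 0 < Module.finrank ℚ L := Module.finrank_pos
    rw [Ne, Nat.cast_eq_zero]
    rintro rfl
    omega
  rw [h, hcard, ← hm, mean, card_rootSetC (separable_mapC hp hx), Nat.cast_mul,
    mul_div_mul_left _ _ hm0]

variable {ι : Type*}

/-- The mean of a function over the conjugates of a point, that is over the embeddings into `ℂ`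
of the field generated by its coordinates. -/
def conjMean (P : ι → ℂ) (F : (ι → ℂ) → ℂ) : ℂ :=
  (∑ᶠ σ : IntermediateField.adjoin ℚ (Set.range P) →ₐ[ℚ] ℂ,
      F fun i => σ ⟨P i, IntermediateField.subset_adjoin ℚ _ ⟨i, rfl⟩⟩) /
    (Nat.card (IntermediateField.adjoin ℚ (Set.range P) →ₐ[ℚ] ℂ) : ℂ)

theorem conjMean_eq [Fintype ι] (P : ι → L) (F : (ι → ℂ) → ℂ) :
    conjMean (fun i => (P i : ℂ)) F =
      (∑ g : L ≃ₐ[ℚ] L, F fun i => (g (P i) : ℂ)) / (Fintype.card (L ≃ₐ[ℚ] L) : ℂ) := by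
  classical
  set K := IntermediateField.adjoin ℚ (Set.range fun i => (P i : ℂ)) with hK
  have hle : K ≤ L := IntermediateField.adjoin_le_iff.2 (by rintro _ ⟨i, rfl⟩; exact (P i).2)
  have : FiniteDimensional ℚ K :=
    FiniteDimensional.of_injective (IntermediateField.inclusion hle).toLinearMap
      (IntermediateField.inclusion hle).injective
  set gen : ι → K := fun i => ⟨(P i : ℂ), IntermediateField.subset_adjoin ℚ _ ⟨i, rfl⟩⟩
  set ev : (K →ₐ[ℚ] ℂ) → ι → ℂ := fun σ i => σ (gen i) with hev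
  have hinj : Function.Injective ev := by
    intro σ τ h
    apply AlgHom.ext
    rintro ⟨x, hx⟩
    induction hx using IntermediateField.adjoin_induction with
    | mem x hx => obtain ⟨i, rfl⟩ := hx; exact congrFun h i
    | algebraMap q => exact (σ.commutes q).trans (τ.commutes q).symm
    | add x y hx hy h1 h2 =>
      refine ((map_add σ ⟨x, hx⟩ ⟨y, hy⟩).trans ?_).trans (map_add τ ⟨x, hx⟩ ⟨y, hy⟩).symm
      rw [h1, h2]
    | inv x hx h1 =>
      refine ((map_inv₀ σ ⟨x, hx⟩).trans ?_).trans (map_inv₀ τ ⟨x, hx⟩).symm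
      rw [h1]
    | mul x y hx hy h1 h2 =>
      refine ((map_mul σ ⟨x, hx⟩ ⟨y, hy⟩).trans ?_).trans (map_mul τ ⟨x, hx⟩ ⟨y, hy⟩).symm
      rw [h1, h2]
  set evG : (L ≃ₐ[ℚ] L) → ι → ℂ := fun g i => (g (P i) : ℂ) with hevG
  have himg : univ.image ev = univ.image evG := by
    ext Q
    simp only [mem_image, mem_univ, true_and]
    constructor
    · rintro ⟨σ, rfl⟩
      obtain ⟨φ, hφ⟩ := IntermediateField.exists_algHom_adjoin_of_splits
        (S := (L : Set ℂ)) (fun s hs => ⟨(isAlgebraic_coe (⟨s, hs⟩ : L)).isIntegral,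
          IsAlgClosed.splits _⟩) σ (hle.trans (IntermediateField.subset_adjoin ℚ _))
      have hLe : L ≤ IntermediateField.adjoin ℚ (L : Set ℂ) :=
        IntermediateField.subset_adjoin ℚ _
      set ψ := φ.comp (IntermediateField.inclusion hLe)
      have hn : Normal ℚ L := IsGalois.to_normal
      have hmem : ∀ x, ψ x ∈ L := fun x =>
        (@AlgHom.fieldRange_of_normal _ _ _ _ _ L hn ψ).le ⟨x, rfl⟩
      let γ : L →ₐ[ℚ] L :=
        { toFun := fun x => ⟨ψ x, hmem x⟩
          map_one' := Subtype.ext (map_one ψ)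
          map_mul' := fun x y => Subtype.ext (map_mul ψ x y)
          map_zero' := Subtype.ext (map_zero ψ)
          map_add' := fun x y => Subtype.ext (map_add ψ x y)
          commutes' := fun q => Subtype.ext (ψ.commutes q) }
      refine ⟨AlgEquiv.ofBijective γ (Algebra.IsAlgebraic.algHom_bijective γ), funext fun i => ?_⟩
      exact AlgHom.congr_fun hφ (gen i)
    · rintro ⟨g, rfl⟩
      exact ⟨L.val.comp ((g : L →ₐ[ℚ] L).comp (IntermediateField.inclusion hle)), rfl⟩
  obtain ⟨m, hm, hprod⟩ := prod_smul_eq (G := L ≃ₐ[ℚ] L) (M := Multiplicative ℂ) P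
  have hsum := congrArg Multiplicative.toAdd
    (hprod fun Q => Multiplicative.ofAdd (F fun i => (Q i : ℂ)))
  simp only [toAdd_prod, toAdd_pow, toAdd_ofAdd, nsmul_eq_mul] at hsum
  have hinj' : Function.Injective fun Q : ι → L => fun i => (Q i : ℂ) := fun Q R h =>
    funext fun i => Subtype.ext (congrFun h i)
  have himg' : univ.image evG =
      (univ.image fun g : L ≃ₐ[ℚ] L => g • P).image fun Q i => (Q i : ℂ) := by
    rw [Finset.image_image]; rfl
  rw [← Finset.card_image_of_injective _ hinj', ← himg', ← himg,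
    Finset.card_image_of_injective _ hinj, Finset.card_univ] at hm
  rw [← Finset.sum_image (g := fun Q i => (Q i : ℂ)) (f := F)
    fun Q _ R _ h => hinj' h, ← himg', ← himg, Finset.sum_image fun a _ b _ h => hinj h] at hsum
  have hm0 : (m : ℂ) ≠ 0 := by
    have h0 : 0 < Fintype.card (L ≃ₐ[ℚ] L) := Fintype.card_pos
    rw [Ne, Nat.cast_eq_zero]
    rintro rfl
    omega
  rw [conjMean, finsum_eq_sum_of_fintype, Nat.card_eq_fintype_card,
    show (∑ g : L ≃ₐ[ℚ] L, F fun i => (g (P i) : ℂ)) = (m : ℂ) * ∑ σ, F (ev σ) from hsum,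
    ← hm, Nat.cast_mul, mul_div_mul_left _ _ hm0]

end FA.BiluTorus

end
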