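import Fermat.Agent.BiluTorus.Points
import Mathlib.Analysis.Fourier.AddCircleMulti
import Mathlib.MeasureTheory.Integral.Pi

/-!
# Bilu's theorem on tori

Equidistribution on the torus follows from the vanishing of the means of all characters, which
is the one-dimensional theorem applied to the values of the characters.
-/

set_option autoImplicit false

noncomputable section

namespace FA.BiluTorus

open Filter Topology Finset Polynomial MeasureTheory Real FA.Bilu

variable {ι : Type*} [Fintype ι]

theorem isProbability_torus : IsProbabilityMeasure (volume : Measure (UnitAddTorus ι)) := by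
  refine ⟨?_⟩
  show (Measure.pi fun _ : ι => (volume : Measure (AddCircle (1 : ℝ)))) Set.univ = 1
  rw [Measure.pi_univ]
  simp

/-- The Haar mean over the torus `(S¹)^ι` inside `ℂ^ι`. -/
def torusMean (F : (ι → ℂ) → ℂ) : ℂ := ∫ θ : UnitAddTorus ι, F fun i => fourier 1 (θ i)

theorem integral_fourier_volume (m : ℤ) :
    ∫ x : AddCircle (1 : ℝ), fourier m x = if m = 0 then 1 else 0 := by
  rw [← FA.Equidist.circMean_fourier, FA.Equidist.circMean, AddCircle.integral_haarAddCircle,
    inv_one, one_smul]

theorem integral_mFourier (a : ι → ℤ) :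
    ∫ θ : UnitAddTorus ι, UnitAddTorus.mFourier a θ = if a = 0 then 1 else 0 := by
  show ∫ θ : ι → AddCircle (1 : ℝ), ∏ i, fourier (a i) (θ i) = _
  rw [integral_fintype_prod_volume_eq_prod (f := fun i x => fourier (a i) x)]
  simp only [integral_fourier_volume]
  split_ifs with h
  · subst h; simp
  · obtain ⟨i, hi⟩ := Function.ne_iff.1 h
    exact Finset.prod_eq_zero (mem_univ i) (if_neg hi)

theorem dir_prod_zpow {z : ι → ℂ} (a : ι → ℤ) :
    dir (∏ i, z i ^ a i) = ∏ i, dir (z i) ^ a i := by
  simp only [dir, norm_prod, norm_zpow, Complex.ofReal_prod, Complex.ofReal_zpow, div_zpow,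
    Finset.prod_div_distrib]

theorem mFourier_arg {z : ι → ℂ} (hz : ∀ i, z i ≠ 0) (a : ι → ℤ) :
    UnitAddTorus.mFourier a (fun i => ((Complex.arg (z i) / (2 * π) : ℝ) : AddCircle (1 : ℝ))) =
      dir (∏ i, z i ^ a i) := by
  rw [dir_prod_zpow]
  show ∏ i, fourier (a i) _ = _
  refine Finset.prod_congr rfl fun i _ => ?_
  rw [FA.Equidist.fourier_coe_eq_eAdd, eAdd_arg _ (hz i)]

variable {γ : ℕ → Type*} [∀ k, Fintype (γ k)] [∀ k, Nonempty (γ k)]

/-- The mean over a family. -/
def famMean (z : ∀ k, γ k → ι → ℂ) (k : ℕ) (F : (ι → ℂ) → ℂ) : ℂ :=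
  (∑ x, F (z k x)) / (Fintype.card (γ k) : ℂ)

omit [Fintype ι] [∀ k, Nonempty (γ k)] in
theorem norm_famMean_le (z : ∀ k, γ k → ι → ℂ) (k : ℕ) {F : (ι → ℂ) → ℂ} {φ : (ι → ℂ) → ℝ}
    (h : ∀ x, ‖F (z k x)‖ ≤ φ (z k x)) :
    ‖famMean z k F‖ ≤ (∑ x, φ (z k x)) / Fintype.card (γ k) := by
  rw [famMean, norm_div, Complex.norm_natCast]
  exact div_le_div_of_nonneg_right (norm_sum_le_of_le _ fun x _ => h x) (Nat.cast_nonneg _)

omit [Fintype ι] [∀ k, Nonempty (γ k)] in
theorem famMean_sub (z : ∀ k, γ k → ι → ℂ) (k : ℕ) (F F' : (ι → ℂ) → ℂ) :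
    famMean z k (fun w => F w - F' w) = famMean z k F - famMean z k F' := by
  rw [famMean, famMean, famMean, Finset.sum_sub_distrib, sub_div]

/-- Equidistribution on the torus from characters and moduli. -/
theorem tendsto_famMean {z : ∀ k, γ k → ι → ℂ} (hz : ∀ k x i, z k x i ≠ 0)
    (hchar : ∀ a : ι → ℤ, a ≠ 0 →
      Tendsto (fun k => famMean z k fun w => dir (∏ i, w i ^ a i)) atTop (𝓝 0))
    (hrad : ∀ i, Tendsto (fun k => (∑ x, |log ‖z k x i‖|) / (Fintype.card (γ k) : ℝ))
      atTop (𝓝 0))
    {g : (ι → ℂ) → ℂ} (hg : Continuous g) {B : ℝ} (hB : ∀ w, ‖g w‖ ≤ B) :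
    Tendsto (fun k => famMean z k g) atTop (𝓝 (torusMean g)) := by
  have hB0 : 0 ≤ B := (norm_nonneg _).trans (hB 0)
  have hcard : ∀ k, (0 : ℝ) < Fintype.card (γ k) := fun k => Nat.cast_pos.2 Fintype.card_pos
  set p : (ι → ℂ) → UnitAddTorus ι :=
    fun w i => ((Complex.arg (w i) / (2 * π) : ℝ) : AddCircle (1 : ℝ))
  set u : UnitAddTorus ι → ι → ℂ := fun θ i => fourier 1 (θ i) with hu
  have huc : Continuous u := continuous_pi fun i => (map_continuous _).comp (continuous_apply i)
  have hup : ∀ k x, u (p (z k x)) = fun i => dir (z k x i) := fun k x => funext fun i => by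
    show fourier 1 _ = _
    rw [FA.Equidist.fourier_coe_eq_eAdd, eAdd_arg 1 (hz k x i), zpow_one]
  have hint : ∀ φ : C(UnitAddTorus ι, ℂ), Integrable φ (volume : Measure (UnitAddTorus ι)) :=
    fun φ => φ.continuous.integrable_of_hasCompactSupport (HasCompactSupport.of_compactSpace φ)
  have hspan : ∀ φ ∈ Submodule.span ℂ (Set.range <| UnitAddTorus.mFourier (d := ι)), Tendsto
      (fun k => famMean z k fun w => φ (p w)) atTop (𝓝 (∫ θ, φ θ)) := by
    intro φ hφ
    induction hφ using Submodule.span_induction with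
    | mem φ hφ =>
      obtain ⟨a, rfl⟩ := hφ
      rw [integral_mFourier]
      split_ifs with ha
      · subst ha
        refine tendsto_const_nhds.congr fun k => ?_
        simp [famMean, UnitAddTorus.mFourier_zero]
      · refine (hchar a ha).congr fun k => ?_
        simp only [famMean]
        congr 1
        exact Finset.sum_congr rfl fun x _ => (mFourier_arg (hz k x) a).symm
    | zero => simp [famMean]
    | add φ φ' _ _ hφ hφ' =>
      simp only [ContinuousMap.add_apply]
      rw [integral_add (hint φ) (hint φ')]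
      refine (hφ.add hφ').congr fun k => ?_
      simp only [famMean, Finset.sum_add_distrib, add_div]
    | smul c φ _ hφ =>
      simp only [ContinuousMap.smul_apply, smul_eq_mul]
      rw [integral_const_mul]
      refine (hφ.const_mul c).congr fun k => ?_
      simp only [famMean, ← Finset.mul_sum, mul_div_assoc]
  set G : C(UnitAddTorus ι, ℂ) := ⟨g ∘ u, hg.comp huc⟩
  have hdir : Tendsto (fun k => famMean z k fun w => G (p w)) atTop (𝓝 (∫ θ, G θ)) := by
    rw [Metric.tendsto_atTop]
    intro ε hε
    have hmem : G ∈ (Submodule.span ℂ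
        (Set.range <| UnitAddTorus.mFourier (d := ι))).topologicalClosure := by
      rw [UnitAddTorus.span_mFourier_closure_eq_top]; exact Submodule.mem_top
    rw [← SetLike.mem_coe, Submodule.topologicalClosure_coe, Metric.mem_closure_iff] at hmem
    obtain ⟨φ, hφ, hd⟩ := hmem (ε / 3) (by linarith)
    rw [dist_eq_norm] at hd
    obtain ⟨N, hN⟩ := Metric.tendsto_atTop.1 (hspan φ hφ) (ε / 3) (by linarith)
    refine ⟨N, fun k hk => ?_⟩
    have h1 : ‖famMean z k (fun w => G (p w)) - famMean z k (fun w => φ (p w))‖ ≤ ε / 3 := by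
      rw [← famMean_sub]
      refine (norm_famMean_le z k (φ := fun _ => ε / 3) fun x => ?_).trans (le_of_eq ?_)
      · exact ((G - φ).norm_coe_le_norm _).trans hd.le
      · rw [Finset.sum_const, Finset.card_univ, nsmul_eq_mul, mul_div_cancel_left₀ _ (hcard k).ne']
    have := isProbability_torus (ι := ι)
    have h2 : ‖(∫ θ, φ θ) - ∫ θ, G θ‖ ≤ ε / 3 := by
      rw [← integral_sub (hint φ) (hint G)]
      refine (norm_integral_le_of_norm_le_const (C := ε / 3)
        (Eventually.of_forall fun θ => ?_)).trans (le_of_eq (by rw [probReal_univ, mul_one]))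
      rw [norm_sub_rev]
      exact ((G - φ).norm_coe_le_norm θ).trans hd.le
    have h3 := hN k hk
    rw [dist_eq_norm] at h3 ⊢
    calc ‖famMean z k (fun w => G (p w)) - ∫ θ, G θ‖
        = ‖(famMean z k (fun w => G (p w)) - famMean z k (fun w => φ (p w))) +
          ((famMean z k (fun w => φ (p w)) - ∫ θ, φ θ) + ((∫ θ, φ θ) - ∫ θ, G θ))‖ := by
            ring_nf
      _ < ε := by
        refine (norm_add_le _ _).trans_lt ?_
        have := norm_add_le (famMean z k (fun w => φ (p w)) - ∫ θ, φ θ)
          ((∫ θ, φ θ) - ∫ θ, G θ)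
        linarith
  refine tendsto_of_tendsto_of_dist hdir ?_
  rw [Metric.tendsto_atTop]
  intro δ hδ
  obtain ⟨η, hη, huni⟩ := Metric.uniformContinuousOn_iff.1
    ((isCompact_closedBall (0 : ι → ℂ) 2).uniformContinuousOn_of_continuous hg.continuousOn)
    (δ / 2) (by linarith)
  obtain ⟨c, hc, hexp⟩ := Metric.continuous_iff.1 Real.continuous_exp 0 (min η 1)
    (lt_min hη one_pos)
  have hpt : ∀ k x, ‖g (z k x) - G (p (z k x))‖ ≤
      δ / 2 + 2 * B / c * ∑ i, |log ‖z k x i‖| := by
    intro k x
    show ‖g (z k x) - g (u (p (z k x)))‖ ≤ _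
    rw [hup]
    have hnn : 0 ≤ 2 * B / c * ∑ i, |log ‖z k x i‖| :=
      mul_nonneg (by positivity) (Finset.sum_nonneg fun i _ => abs_nonneg _)
    rcases lt_or_ge (∑ i, |log ‖z k x i‖|) c with h | h
    · have h1 : ∀ i, |‖z k x i‖ - 1| < min η 1 := fun i => by
        have := hexp (log ‖z k x i‖) (by
          rw [Real.dist_eq, sub_zero]
          exact lt_of_le_of_lt (Finset.single_le_sum (f := fun i => |log ‖z k x i‖|)
            (fun j _ => abs_nonneg _) (mem_univ i)) h)
        rwa [exp_log (norm_pos_iff.2 (hz k x i)), exp_zero, Real.dist_eq] at this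
      have hd : ∀ i, ‖z k x i - dir (z k x i)‖ = |‖z k x i‖ - 1| := fun i => by
        have e : z k x i - dir (z k x i) = ((‖z k x i‖ - 1 : ℝ) : ℂ) * dir (z k x i) := by
          rw [Complex.ofReal_sub, sub_mul, Complex.ofReal_one, one_mul, dir,
            mul_div_cancel₀ _ (Complex.ofReal_ne_zero.2 (norm_ne_zero_iff.2 (hz k x i)))]
        rw [e, norm_mul, norm_dir (hz k x i), mul_one, Complex.norm_real, Real.norm_eq_abs]
      have h2 : z k x ∈ Metric.closedBall (0 : ι → ℂ) 2 := by
        rw [mem_closedBall_zero_iff, pi_norm_le_iff_of_nonneg (by norm_num)]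
        intro i
        linarith [(abs_lt.1 (lt_of_lt_of_le (h1 i) (min_le_right _ _))).2]
      have h3 : (fun i => dir (z k x i)) ∈ Metric.closedBall (0 : ι → ℂ) 2 := by
        rw [mem_closedBall_zero_iff, pi_norm_le_iff_of_nonneg (by norm_num)]
        intro i
        rw [norm_dir (hz k x i)]; norm_num
      have h4 := huni _ h2 _ h3 (by
        rw [dist_eq_norm, pi_norm_lt_iff hη]
        intro i
        rw [Pi.sub_apply, hd]
        exact lt_of_lt_of_le (h1 i) (min_le_left _ _))
      rw [dist_eq_norm] at h4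
      linarith
    · have h1 : 2 * B ≤ 2 * B / c * ∑ i, |log ‖z k x i‖| := by
        rw [div_mul_eq_mul_div, le_div_iff₀ hc]
        exact mul_le_mul_of_nonneg_left h (by linarith)
      linarith [norm_sub_le (g (z k x)) (g fun i => dir (z k x i)), hB (z k x),
        hB fun i => dir (z k x i)]
  have hsum : Tendsto (fun k => 2 * B / c * ∑ i, (∑ x, |log ‖z k x i‖|) /
      (Fintype.card (γ k) : ℝ)) atTop (𝓝 0) := by
    simpa using (tendsto_finsetSum univ fun i _ => hrad i).const_mul (2 * B / c)
  obtain ⟨N, hN⟩ := eventually_atTop.1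
    (hsum.eventually (eventually_lt_nhds (show (0 : ℝ) < δ / 2 by linarith)))
  refine ⟨N, fun k hk => ?_⟩
  rw [Real.dist_eq, sub_zero, abs_of_nonneg dist_nonneg, dist_eq_norm, norm_sub_rev, ← famMean_sub]
  refine lt_of_le_of_lt (norm_famMean_le z k
    (φ := fun w => δ / 2 + 2 * B / c * ∑ i, |log ‖w i‖|) fun x => hpt k x) ?_
  have h := hN k hk
  rw [← Finset.sum_div, Finset.sum_comm, ← mul_div_assoc] at h
  rw [Finset.sum_add_distrib, Finset.sum_const, Finset.card_univ, nsmul_eq_mul, ← Finset.mul_sum,
    add_div, mul_div_cancel_left₀ _ (hcard k).ne']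
  linarith

/-- **Bilu's theorem on tori.** -/
theorem tendsto_conjMean {P : ℕ → ι → ℂ} (halg : ∀ k i, IsAlgebraic ℚ (P k i))
    (hne : ∀ k i, P k i ≠ 0) (hh : ∀ i, Tendsto (fun k => algHeight (P k i)) atTop (𝓝 0))
    (hstrict : ∀ a : ι → ℤ, a ≠ 0 → ∀ᶠ k in atTop, ∏ i, P k i ^ a i ≠ 1)
    {g : (ι → ℂ) → ℂ} (hg : Continuous g) {B : ℝ} (hB : ∀ w, ‖g w‖ ≤ B) :
    Tendsto (fun k => conjMean (P k) g) atTop (𝓝 (torusMean g)) := by
  choose L hfd hgal hmem using fun k => exists_galois (P k) (halg k)
  set z : ∀ k, (L k ≃ₐ[ℚ] L k) → ι → ℂ := fun k σ i => (σ ⟨P k i, hmem k i⟩ : ℂ) with hzdef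
  have hconj : ∀ k, conjMean (P k) g = famMean z k g := fun k =>
    conjMean_eq (L := L k) (fun i => ⟨P k i, hmem k i⟩) g
  simp only [hconj]
  have hz : ∀ k x i, z k x i ≠ 0 := fun k x i h => hne k i (by
    have h1 : x ⟨P k i, hmem k i⟩ = 0 := Subtype.ext h
    rw [map_eq_zero] at h1
    exact congrArg Subtype.val h1)
  refine tendsto_famMean hz (fun a ha => ?_) (fun i => ?_) hg hB
  · -- the values of a character
    have hβalg : ∀ k, IsAlgebraic ℚ (∏ i, P k i ^ a i) := fun k =>
      (algHeight_prod_zpow_le univ (P k) (halg k) a).1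
    have hβne : ∀ k, (∏ i, P k i ^ a i) ≠ 0 := fun k =>
      Finset.prod_ne_zero_iff.2 fun i _ => zpow_ne_zero _ (hne k i)
    choose p hp hx using fun k => exists_irreducible (hβalg k)
    have hhβ : Tendsto (fun k => logM (p k) / (p k).natDegree) atTop (𝓝 0) := by
      refine squeeze_zero (fun k => div_nonneg (logM_nonneg _) (Nat.cast_nonneg _)) (fun k => ?_)
        (show Tendsto (fun k => ∑ i, |(a i : ℝ)| * algHeight (P k i)) atTop (𝓝 0) by
          simpa using tendsto_finsetSum univ fun i _ => (hh i).const_mul |(a i : ℝ)|)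
      rw [← algHeight_eq (hp k) (hx k)]
      exact (algHeight_prod_zpow_le univ (P k) (halg k) a).2
    have hdeg : Tendsto (fun k => (p k).natDegree) atTop atTop := by
      rw [tendsto_atTop]
      intro D
      have hfin := finite_mahlerMeasure_le D (Real.toNNReal (exp (D : ℝ)))
      have hbad : ∀ q ∈ hfin.toFinset, ∀ᶠ k in atTop, p k ≠ q := by
        intro q _
        rcases (logM_nonneg q).eq_or_lt with h0 | h0
        · rcases eq_or_ne q 0 with rfl | hq0
          · exact Eventually.of_forall fun k => (hp k).ne_zero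
          have hM : (q.map (Int.castRingHom ℂ)).mahlerMeasure = 1 := by
            refine Real.eq_one_of_pos_of_log_eq_zero ?_ h0.symm
            exact lt_of_lt_of_le one_pos (one_le_mahlerMeasure_of_ne_zero hq0)
          have hroot : ∀ w ∈ rootSetC q, ∀ᶠ k in atTop, ∏ i, P k i ^ a i ≠ w := by
            intro w hw
            rcases eq_or_ne w 0 with rfl | hw0
            · exact Eventually.of_forall hβne
            obtain ⟨m, hm, hwm⟩ := pow_eq_one_of_mahlerMeasure_eq_one hM hw0 (by
              rw [rootSetC, Multiset.mem_toFinset] at hw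
              rwa [aroots_def, algebraMap_int_eq])
            have ham : (fun i => (m : ℤ) * a i) ≠ 0 := fun h => ha (funext fun i => by
              have := congrFun h i
              simpa [hm.ne'] using this)
            refine (hstrict _ ham).mono fun k hk e => hk ?_
            rw [← hwm, ← e, ← Finset.prod_pow]
            exact Finset.prod_congr rfl fun i _ => by rw [← zpow_natCast, ← zpow_mul, mul_comm]
          refine ((rootSetC q).eventually_all.2 hroot).mono fun k hk e => hk _ ?_ rfl
          rw [← e, rootSetC, Multiset.mem_toFinset, mem_roots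
            ((Polynomial.map_ne_zero_iff (Int.castRingHom ℂ).injective_int).2 (hp k).ne_zero),
            IsRoot, eval_map]
          have := hx k
          rwa [aeval_def, algebraMap_int_eq] at this
        · rcases Nat.eq_zero_or_pos q.natDegree with hd | hd
          · refine Eventually.of_forall fun k e => ?_
            have := natDegree_pos_of_root (hp k) (hx k)
            rw [e] at this
            omega
          refine (hhβ.eventually (eventually_lt_nhds
            (div_pos h0 (Nat.cast_pos.2 hd)))).mono fun k hk e => ?_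
          rw [e] at hk
          exact lt_irrefl _ hk
      filter_upwards [(hfin.toFinset).eventually_all.2 hbad,
        hhβ.eventually (eventually_lt_nhds one_pos)] with k hk hk1
      by_contra hlt
      refine hk (p k) (hfin.mem_toFinset.2 ⟨le_of_not_ge hlt, ?_⟩) rfl
      rw [Real.coe_toNNReal _ (exp_pos _).le,
        ← exp_log (lt_of_lt_of_le one_pos (one_le_mahlerMeasure_of_ne_zero (hp k).ne_zero))]
      refine exp_le_exp.2 ?_
      rw [div_lt_iff₀ (Nat.cast_pos.2 (natDegree_pos_of_root (hp k) (hx k))), one_mul] at hk1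
      exact hk1.le.trans (Nat.cast_le.2 (le_of_not_ge hlt))
    refine (tendsto_angSum (Eventually.of_forall fun k => separable_mapC (hp k) (hx k))
      (Eventually.of_forall fun k => coeff_zero_ne (hp k) (hx k) (hβne k)) hdeg hhβ
      one_pos).congr fun k => ?_
    have hb : ((∏ i, (⟨P k i, hmem k i⟩ : L k) ^ a i : L k) : ℂ) = ∏ i, P k i ^ a i := by
      show (L k).val _ = _
      rw [map_prod]
      exact Finset.prod_congr rfl fun i _ => map_zpow₀ (L k).val _ _
    have h := mean_galois (∏ i, (⟨P k i, hmem k i⟩ : L k) ^ a i) (hp k)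
      (by rw [hb]; exact hx k) dir
    simp only [mean] at h
    simp only [angSum, pow_one]
    rw [← h, famMean]
    congr 1
    refine Finset.sum_congr rfl fun σ _ => congrArg dir ?_
    rw [map_prod]
    show (L k).val _ = _
    rw [map_prod]
    exact Finset.prod_congr rfl fun i _ => by rw [map_zpow₀, map_zpow₀]; rfl
  · refine squeeze_zero (fun k => div_nonneg (Finset.sum_nonneg fun x _ => abs_nonneg _)
      (Nat.cast_nonneg _)) (fun k => ?_) (by simpa using (hh i).const_mul 2)
    obtain ⟨p, hp, hx⟩ := exists_irreducible (halg k i)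
    have hd := natDegree_pos_of_root hp hx
    obtain ⟨m, hm, hsum, -⟩ := galois_fibres (L := L k) ⟨P k i, hmem k i⟩ hp hx
    have hcard : Fintype.card (L k ≃ₐ[ℚ] L k) = Module.finrank ℚ (L k) := by
      rw [← Nat.card_eq_fintype_card, IsGalois.card_aut_eq_finrank]
    have h0 : 0 < Module.finrank ℚ (L k) := Module.finrank_pos
    rw [show (∑ x, |log ‖z k x i‖|) = m * radial (rootSetC p) from hsum fun w => |log ‖w‖|,
      hcard, ← hm, Nat.cast_mul, mul_div_mul_left _ _ (Nat.cast_ne_zero.2 (by
        rintro rfl; omega)), algHeight_eq hp hx, ← mul_div_assoc]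
    exact div_le_div_of_nonneg_right
      (radial_le (separable_mapC hp hx) (coeff_zero_ne hp hx (hne k i))) (Nat.cast_nonneg _)

end FA.BiluTorus

end
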